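import Fermat.Agent.Torsion.MulPoint
import Mathlib.FieldTheory.IsAlgClosed.Basic
import Mathlib.LinearAlgebra.FiniteDimensional.Basic
import Mathlib.FieldTheory.Finite.Basic
import Mathlib.Algebra.Module.Torsion.Basic

set_option autoImplicit false
set_option linter.unusedSectionVars false

/-!
`#E[n] = n²` over an algebraically closed field of characteristic zero.
-/

namespace FLTAgent.Torsion

open WeierstrassCurve WeierstrassCurve.Affine Polynomial

variable {F : Type*} [Field F] [IsAlgClosed F] [CharZero F] [DecidableEq F]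
  (W : WeierstrassCurve F) [W.IsElliptic]

/-- every `x` is the x-coordinate of a point -/
lemma exists_nonsingular (x : F) : ∃ y, W.toAffine.Nonsingular x y := by
  obtain ⟨y, hy⟩ := IsAlgClosed.exists_root
    (C 1 * X ^ 2 + C (W.a₁ * x + W.a₃) * X
      + C (-(x ^ 3 + W.a₂ * x ^ 2 + W.a₄ * x + W.a₆)))
    (by rw [degree_quadratic one_ne_zero]; norm_num)
  refine ⟨y, (equation_iff_nonsingular (W := W.toAffine)).mp ?_⟩
  rw [equation_iff]
  simp [IsRoot] at hy
  linear_combination hy

lemma eval_Φ_ne_zero {n : ℕ} (hn : n ≠ 0) {r : F} (h0 : (W.ΨSq n).eval r = 0) :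
    (W.Φ n).eval r ≠ 0 :=
  Φ_ne_zero_of_ΨSq_eq_zero (exists_nonsingular W r).choose_spec hn h0

lemma wronskian_ne_zero {n : ℕ} (hn : 2 ≤ n) :
    derivative (W.Φ n) * W.ΨSq n - W.Φ n * derivative (W.ΨSq n) ≠ 0 := by
  have hn' : (n : F) ≠ 0 := Nat.cast_ne_zero.mpr (by omega)
  obtain ⟨m, hm⟩ : ∃ m, n ^ 2 = m + 2 := ⟨n ^ 2 - 2, by have := Nat.pow_le_pow_left hn 2; omega⟩
  have hna : (n : ℤ).natAbs ^ 2 = m + 2 := by simpa using hm
  have dΦ : (W.Φ n).natDegree ≤ m + 2 := hna ▸ W.natDegree_Φ_le n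
  have dΨ : (W.ΨSq n).natDegree ≤ m + 1 := by
    have := W.natDegree_ΨSq_le n; omega
  have cΦ : (W.Φ n).coeff (m + 2) = 1 := hna ▸ W.coeff_Φ n
  have cΨ : (W.ΨSq n).coeff (m + 1) = (n : F) ^ 2 := by
    have := W.coeff_ΨSq n
    rw [hna] at this
    simpa using this
  have dΦ' : (derivative (W.Φ n)).natDegree ≤ m + 1 :=
    (natDegree_derivative_le _).trans (by omega)
  have dΨ' : (derivative (W.ΨSq n)).natDegree ≤ m :=
    (natDegree_derivative_le _).trans (by omega)
  intro h
  have e := congrArg (fun p => coeff p (m + 1 + (m + 1))) h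
  simp only [coeff_sub, coeff_zero] at e
  rw [coeff_mul_add_eq_of_natDegree_le dΦ' dΨ] at e
  rw [show m + 1 + (m + 1) = m + 2 + m by ring, coeff_mul_add_eq_of_natDegree_le dΦ dΨ',
    coeff_derivative, coeff_derivative, show m + 1 + 1 = m + 2 by ring, cΦ, cΨ] at e
  apply pow_ne_zero 2 hn'
  push_cast at e
  linear_combination e

theorem card_nsmul_kernel (n : ℕ) (hn : n ≠ 0) :
    Nat.card {Q : W.toAffine.Point // n • Q = 0} = n ^ 2 := by
  classical
  rcases eq_or_ne n 1 with rfl | hn1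
  · simp only [one_smul, one_pow]
    exact Nat.card_eq_one_iff_unique.mpr
      ⟨⟨fun a b => Subtype.ext (a.2.trans b.2.symm)⟩, ⟨⟨0, rfl⟩⟩⟩
  have hn2 : 2 ≤ n := by omega
  set A := W.Φ (n : ℤ) with hA
  set B := W.ΨSq (n : ℤ) with hB
  set Wr := derivative A * B - A * derivative B with hWr
  have hWr0 : Wr ≠ 0 := wronskian_ne_zero W hn2
  obtain ⟨c, hc⟩ := Infinite.exists_notMem_finset
    (Wr.roots.toFinset.image (fun r => A.eval r / B.eval r) ∪ W.Ψ₂Sq.roots.toFinset)
  rw [Finset.mem_union, not_or] at hc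
  obtain ⟨hc1, hc2⟩ := hc
  have hB2 : W.Ψ₂Sq ≠ 0 := W.Ψ₂Sq_ne_zero (by norm_num)
  have hc2' : W.Ψ₂Sq.eval c ≠ 0 := fun e => hc2 (by simp [mem_roots, hB2, IsRoot, e])
  obtain ⟨y, hy⟩ := exists_nonsingular W c
  set R : W.toAffine.Point := Point.some c y hy with hR
  have hRne : -R ≠ R := by
    rw [hR, Point.neg_some]
    intro e
    have e' : W.toAffine.negY c y = y := by simpa using e
    apply hc2'
    rw [← pY_sq hy.1, eq_negY_iff_pY.mp e'.symm]
    ring
  set q := A - C c * B with hq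
  have hdA : A.natDegree = n ^ 2 := by simp [hA, W.natDegree_Φ]
  have hdB : (C c * B).natDegree < n ^ 2 := by
    have h1 : 4 ≤ n ^ 2 := Nat.pow_le_pow_left hn2 2
    have := (natDegree_C_mul_le c B).trans (hB ▸ W.natDegree_ΨSq_le (n : ℤ))
    simp at this
    omega
  have hdq : q.natDegree = n ^ 2 := by
    rw [hq, natDegree_sub_eq_left_of_natDegree_lt (hdA.symm ▸ hdB), hdA]
  have hq0 : q ≠ 0 := fun e => by
    rw [e] at hdq; simp at hdq; omega
  have hB_ne : ∀ r, q.eval r = 0 → B.eval r ≠ 0 := by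
    intro r hr hBr
    refine eval_Φ_ne_zero W hn hBr ?_
    simpa [hq, hBr] using hr
  have hnodup : q.roots.Nodup := by
    rw [Multiset.nodup_iff_count_le_one]
    intro r
    rw [count_roots]
    by_contra hlt
    push Not at hlt
    obtain ⟨h1, h2⟩ := (one_lt_rootMultiplicity_iff_isRoot hq0).mp hlt
    have hBr := hB_ne r h1
    apply hc1
    simp only [Finset.mem_image, Multiset.mem_toFinset, mem_roots hWr0]
    simp [hq, IsRoot] at h1 h2
    refine ⟨r, ?_, ?_⟩
    · simp [hWr, IsRoot]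
      linear_combination B.eval r * h2 - (derivative B).eval r * h1
    · field_simp
      linear_combination h1
  have hcard : q.roots.toFinset.card = n ^ 2 := by
    rw [Multiset.toFinset_card_of_nodup hnodup, IsAlgClosed.card_roots_eq_natDegree, hdq]
  have hfib : ∀ Q : W.toAffine.Point, n • Q = R → Q ≠ 0 ∧ xc Q ∈ q.roots.toFinset := by
    intro Q hQ
    have hQ0 : Q ≠ 0 := by
      rintro rfl
      rw [nsmul_zero] at hQ
      exact Point.some_ne_zero hy hQ.symm
    refine ⟨hQ0, ?_⟩
    obtain ⟨x, z, hxz, rfl, -⟩ := exists_some_of_ne_zero hQ0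
    have hne : B.eval x ≠ 0 := fun e => by
      have := (nsmul_eq_zero_iff hxz n).mpr e
      rw [hQ] at this
      exact Point.some_ne_zero hy this
    have hx := xc_nsmul hxz n hne
    rw [hQ, hR, xc_some] at hx
    rw [xc_some, Multiset.mem_toFinset, mem_roots hq0, IsRoot, hq, eval_sub, eval_mul, eval_C]
    linear_combination -hx
  let f : {Q : W.toAffine.Point // n • Q = R} → q.roots.toFinset :=
    fun Q => ⟨xc Q.1, (hfib Q.1 Q.2).2⟩
  have hbij : Function.Bijective f := by
    constructor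
    · intro Q Q' e
      rcases eq_or_eq_neg_of_xc_eq (hfib Q.1 Q.2).1 (hfib Q'.1 Q'.2).1 (congrArg Subtype.val e)
        with h | h
      · exact Subtype.ext h
      · exfalso
        have := Q.2
        rw [h, neg_nsmul, Q'.2] at this
        exact hRne this
    · rintro ⟨r, hr⟩
      rw [Multiset.mem_toFinset, mem_roots hq0] at hr
      have hBr := hB_ne r hr
      obtain ⟨z, hz⟩ := exists_nonsingular W r
      set Q : W.toAffine.Point := Point.some r z hz with hQdef
      have hnQ : n • Q ≠ 0 := fun e => hBr ((nsmul_eq_zero_iff hz n).mp e)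
      have hx : xc (n • Q) = c := by
        have := xc_nsmul hz n hBr
        simp [hq, IsRoot] at hr
        apply mul_right_cancel₀ hBr
        rw [this]
        linear_combination hr
      rcases eq_or_eq_neg_of_xc_eq hnQ (Point.some_ne_zero hy) (by rw [hx, xc_some]) with h | h
      · exact ⟨⟨Q, h⟩, Subtype.ext (by simp [f, hQdef])⟩
      · exact ⟨⟨-Q, by rw [neg_nsmul, h, neg_neg]⟩, Subtype.ext (by simp [f, hQdef])⟩
  have hfibcard : Nat.card {Q : W.toAffine.Point // n • Q = R} = n ^ 2 := by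
    rw [Nat.card_congr (Equiv.ofBijective f hbij), Nat.card_eq_fintype_card, Fintype.card_coe,
      hcard]
  have hne : Nonempty {Q : W.toAffine.Point // n • Q = R} := by
    have : 0 < n ^ 2 := by positivity
    exact (Nat.card_pos_iff.mp (hfibcard ▸ this)).1
  obtain ⟨Q₀, hQ₀⟩ := hne
  rw [← hfibcard]
  exact Nat.card_congr ((Equiv.addRight Q₀).subtypeEquiv fun Q => by
    simp [nsmul_add, hQ₀])

theorem natCard_torsionBy (n : ℕ) (hn : n ≠ 0) :
    Nat.card (Submodule.torsionBy ℤ W.toAffine.Point (n : ℤ)) = n ^ 2 := by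
  rw [← card_nsmul_kernel W n hn]
  exact Nat.card_congr (Equiv.subtypeEquivRight fun Q => by
    rw [Submodule.mem_torsionBy_iff, natCast_zsmul])

theorem finite_torsionBy (n : ℕ) (hn : n ≠ 0) :
    Finite (Submodule.torsionBy ℤ W.toAffine.Point (n : ℤ)) :=
  Nat.finite_of_card_ne_zero (by rw [natCard_torsionBy W n hn]; positivity)

end FLTAgent.Torsion
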