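import Fermat.Agent.Torsion.StableLine
import Fermat.Agent.Common.InertiaConj
import Fermat.Prelude.Def_FLTPrelim_CofixedLine

set_option autoImplicit false

/-!
A reducible mod-`p` representation of a semistable curve has a cofixed line.
-/

noncomputable section

namespace FLTAgent.Torsion

open WeierstrassCurve FLTAgent.Local WeierstrassCurve.Affine.Point
open scoped WeierstrassCurve.Affine Pointwise

/-- the `p`-torsion over `QBar` -/
abbrev Tors (W : WeierstrassCurve ℤ) (p : ℕ) : Type :=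
  Submodule.torsionBy ℤ
    ((W.map (Int.castRingHom ℚ))⁄(AlgebraicClosure ℚ)).Point (p : ℤ)

lemma nsmul_tors {W : WeierstrassCurve ℤ} {p : ℕ} (x : Tors W p) :
    p • (x : QPoint W) = 0 := by
  have := (Submodule.mem_torsionBy_iff _ _).mp x.2
  rwa [natCast_zsmul] at this

/-- a point killed by `p` as an element of the torsion -/
def mkTors {W : WeierstrassCurve ℤ} {p : ℕ} (P : QPoint W) (h : p • P = 0) : Tors W p :=
  ⟨P, (Submodule.mem_torsionBy_iff _ _).mpr (by rw [natCast_zsmul]; exact h)⟩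

lemma coe_smul {W : WeierstrassCurve ℤ} {p : ℕ}
    (σ : AlgebraicClosure ℚ ≃ₐ[ℚ] AlgebraicClosure ℚ) (x : Tors W p) :
    ((σ • x : Tors W p) : QPoint W) = σ • (x : QPoint W) := rfl

lemma zmod_smul_eq {W : WeierstrassCurve ℤ} {p : ℕ} [NeZero p] (c : ZMod p) (x : Tors W p) :
    c • x = c.val • x := by
  rw [← Nat.cast_smul_eq_nsmul (ZMod p), ZMod.natCast_zmod_val]

lemma smul_zmod_smul {W : WeierstrassCurve ℤ} {p : ℕ} [NeZero p]
    (σ : AlgebraicClosure ℚ ≃ₐ[ℚ] AlgebraicClosure ℚ) (c : ZMod p) (x : Tors W p) :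
    σ • (c • x) = c • (σ • x) := by
  rw [zmod_smul_eq, zmod_smul_eq]
  exact map_nsmul (DistribMulAction.toAddMonoidHom (Tors W p) σ) _ _

lemma finrank_tors {W : WeierstrassCurve ℤ} (hΔ : W.Δ ≠ 0) (p : ℕ) [Fact p.Prime] :
    Module.Finite (ZMod p) (Tors W p) ∧ Module.finrank (ZMod p) (Tors W p) = 2 := by
  have := isElliptic_curveBar hΔ
  have hp0 : p ≠ 0 := (Fact.out : p.Prime).ne_zero
  have hfin : Finite (Tors W p) := finite_torsionBy (curveBar W) p hp0
  have : Module.Finite (ZMod p) (Tors W p) := Module.Finite.of_finite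
  refine ⟨this, ?_⟩
  have h := Module.natCard_eq_pow_finrank (K := ZMod p) (V := Tors W p)
  rw [show Nat.card (Tors W p) = p ^ 2 from natCard_torsionBy (curveBar W) p hp0,
    Nat.card_zmod] at h
  exact ((Nat.pow_right_injective (Fact.out : p.Prime).two_le h)).symm

/-- elements fixing the stable line pointwise -/
def fixLine {W : WeierstrassCurve ℤ} {p : ℕ} (N : Submodule (ZMod p) (Tors W p)) :
    Subgroup (AlgebraicClosure ℚ ≃ₐ[ℚ] AlgebraicClosure ℚ) where
  carrier := {σ | ∀ x ∈ N, σ • x = x}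
  mul_mem' {a b} ha hb x hx := by rw [mul_smul, hb x hx, ha x hx]
  one_mem' x _ := one_smul _ x
  inv_mem' {a} ha x hx := by rw [inv_smul_eq_iff, ha x hx]

/-- elements acting trivially on the quotient by the stable line -/
def fixQuot {W : WeierstrassCurve ℤ} {p : ℕ} {N : Submodule (ZMod p) (Tors W p)}
    (hN : IsGaloisStable ℚ N) :
    Subgroup (AlgebraicClosure ℚ ≃ₐ[ℚ] AlgebraicClosure ℚ) where
  carrier := {σ | ∀ x : Tors W p, σ • x - x ∈ N}
  mul_mem' {a b} ha hb x := by
    have : (a * b) • x - x = a • (b • x - x) + (a • x - x) := by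
      rw [mul_smul, smul_sub]; abel
    rw [this]
    exact add_mem (hN a _ (hb x)) (ha x)
  one_mem' x := by simp
  inv_mem' {a} ha x := by
    have : a⁻¹ • x - x = -(a • (a⁻¹ • x) - a⁻¹ • x) := by rw [smul_inv_smul]; abel
    rw [this]
    exact neg_mem (ha _)

lemma fixLine_normal {W : WeierstrassCurve ℤ} {p : ℕ} {N : Submodule (ZMod p) (Tors W p)}
    (hN : IsGaloisStable ℚ N) : (fixLine N).Normal := by
  refine ⟨fun σ hσ τ x hx => ?_⟩
  rw [mul_smul, mul_smul, hσ _ (hN τ⁻¹ x hx), smul_inv_smul]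

lemma fixQuot_normal {W : WeierstrassCurve ℤ} {p : ℕ} {N : Submodule (ZMod p) (Tors W p)}
    (hN : IsGaloisStable ℚ N) : (fixQuot hN).Normal := by
  refine ⟨fun σ hσ τ x => ?_⟩
  have : (τ * σ * τ⁻¹) • x - x = τ • (σ • (τ⁻¹ • x) - τ⁻¹ • x) := by
    rw [mul_smul, mul_smul, smul_sub, smul_inv_smul]
  rw [this]
  exact hN τ _ (hσ _)

theorem cofixed_of_semistable {W : WeierstrassCurve ℤ} (hΔ : W.Δ ≠ 0)
    (hss : ∀ q : ℕ, q.Prime → SemistableAt W q) {p : ℕ} (hp : p.Prime) (hp5 : 5 ≤ p)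
    (h2 : (2 : ℤ) ∣ W.Δ) (hv : ¬ p ∣ padicValInt 2 W.Δ)
    (hred : ¬ GaloisRepIsIrreducible (K := AlgebraicClosure ℚ) ℚ (W.map (Int.castRingHom ℚ)) p) :
    HasGaloisStableCofixedLine (K := AlgebraicClosure ℚ) ℚ (W.map (Int.castRingHom ℚ)) p := by
  classical
  have := isElliptic_curveBar hΔ
  have : Fact p.Prime := ⟨hp⟩
  have hp2 : p ≠ 2 := by omega
  obtain ⟨hfin, hrank⟩ := finrank_tors hΔ p
  have hnontriv : Nontrivial (Tors W p) :=
    Module.nontrivial_of_finrank_pos (R := ZMod p) (by rw [hrank]; norm_num)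
  obtain ⟨N, hN, hNb, hNt⟩ : ∃ N : Submodule (ZMod p) (Tors W p),
      IsGaloisStable ℚ N ∧ N ≠ ⊥ ∧ N ≠ ⊤ := by
    by_contra hcon
    push Not at hcon
    exact hred ⟨hnontriv, fun N hN => (em (N = ⊥)).imp id (hcon N hN)⟩
  have hN1 : Module.finrank (ZMod p) N = 1 := by
    have h1 : 0 < Module.finrank (ZMod p) N := by
      rw [Module.finrank_pos_iff]
      exact Submodule.nontrivial_iff_ne_bot.mpr hNb
    have h2 : Module.finrank (ZMod p) N < 2 := hrank ▸ Submodule.finrank_lt hNt
    omega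
  obtain ⟨P₀, hP₀N, hP₀⟩ := N.exists_mem_ne_zero_of_ne_bot hNb
  have hspan : ∀ y ∈ N, ∃ c : ZMod p, c • P₀ = y := fun y hy => by
    obtain ⟨c, hc⟩ := exists_smul_eq_of_finrank_eq_one hN1
      (show (⟨P₀, hP₀N⟩ : N) ≠ 0 from fun e => hP₀ (congrArg Subtype.val e)) ⟨y, hy⟩
    exact ⟨c, congrArg Subtype.val hc⟩
  have hline : ∀ σ : AlgebraicClosure ℚ ≃ₐ[ℚ] AlgebraicClosure ℚ,
      ∃ m : ℕ, σ • (P₀ : QPoint W) = m • (P₀ : QPoint W) := by
    intro σ
    obtain ⟨c, hc⟩ := hspan _ (hN σ _ hP₀N)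
    rw [zmod_smul_eq] at hc
    exact ⟨c.val, by rw [← coe_smul, ← hc]; rfl⟩
  have hfix_of : ∀ σ, σ • P₀ = P₀ → σ ∈ fixLine N := by
    intro σ hσ x hx
    obtain ⟨c, rfl⟩ := hspan x hx
    rw [smul_zmod_smul, hσ]
  have hmax : ∀ S : Submodule (ZMod p) (Tors W p), N ≤ S → S ≠ ⊤ → S ≤ N := by
    intro S hle hS
    have h2 : Module.finrank (ZMod p) S < 2 := hrank ▸ Submodule.finrank_lt hS
    exact (Submodule.eq_of_le_of_finrank_le hle (by omega)).ge
  haveI := fixLine_normal hN
  haveI := fixQuot_normal hN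
  -- finite level
  let S : Set (AlgebraicClosure ℚ) :=
    Set.range (fun x : Tors W p => xcoord (x : QPoint W)) ∪
      Set.range (fun x : Tors W p => ycoord (x : QPoint W))
  have := FLTAgent.Common.isAlgebraic_qbar
  have hfinT : Finite (Tors W p) := finite_torsionBy (curveBar W) p hp.ne_zero
  have hSfin : S.Finite := (Set.finite_range _).union (Set.finite_range _)
  let L := IntermediateField.adjoin ℚ S
  haveI : Finite S := hSfin
  haveI : FiniteDimensional ℚ L :=
    IntermediateField.finiteDimensional_adjoin fun x _ => Algebra.IsIntegral.isIntegral x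
  have hLfix : ∀ σ ∈ L.fixingSubgroup, ∀ x : Tors W p, σ • x = x := by
    intro σ hσ x
    apply Subtype.ext
    rw [coe_smul]
    have hx : ∀ s ∈ S, σ s = s := fun s hs =>
      (IntermediateField.mem_fixingSubgroup_iff L σ).mp hσ s (IntermediateField.subset_adjoin ℚ S hs)
    have h1 := hx _ (Or.inl ⟨x, rfl⟩)
    have h2 := hx _ (Or.inr ⟨x, rfl⟩)
    obtain ⟨Q, hQ⟩ : ∃ Q : QPoint W, (x : QPoint W) = Q := ⟨_, rfl⟩
    simp only [hQ] at h1 h2 ⊢
    rcases Q with _ | ⟨a, b, hns⟩
    · rfl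
    · show Affine.Point.map σ.toAlgHom (Affine.Point.some a b hns) = _
      rw [Affine.Point.map_some, Affine.Point.some.injEq]
      exact ⟨h1, h2⟩
  have hL1 : L.fixingSubgroup ≤ fixLine N := fun σ hσ x _ => hLfix σ hσ x
  have hL2 : L.fixingSubgroup ≤ fixQuot hN := fun σ hσ x => by
    rw [hLfix σ hσ x, sub_self]; exact N.zero_mem
  -- away from p
  have haway : ∀ q : ℕ, q.Prime → q ≠ p → ∀ V : ValuationSubring (AlgebraicClosure ℚ),
      V.LiesOverPrime q → V.inertiaSubgroupIn ℚ ≤ fixLine N ⊓ fixQuot hN := by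
    intro q hq hqp V hV σ hσ
    have h1 : σ • P₀ = P₀ := Subtype.ext
      (inertia_fix_stable_line hV hq (hss q hq) hp hp2 hqp hσ (nsmul_tors P₀) (hline σ))
    refine Subgroup.mem_inf.mpr ⟨hfix_of σ h1, fun x => ?_⟩
    by_contra hx
    set y := σ • x - x with hy
    have hyfix : σ • y = y := Subtype.ext
      (inertia_unipotent hV hq (hss q hq) hp hp2 hqp hσ (nsmul_tors x))
    let F : Submodule (ZMod p) (Tors W p) :=
      { carrier := {z | σ • z = z}
        add_mem' := fun {a b} (ha : σ • a = a) (hb : σ • b = b) => by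
          show σ • (a + b) = a + b
          rw [smul_add, ha, hb]
        zero_mem' := smul_zero _
        smul_mem' := fun c z (hz : σ • z = z) => by
          show σ • (c • z) = c • z
          rw [smul_zmod_smul, hz] }
    have hle : N ≤ F := fun z hz => hfix_of σ h1 z hz
    have hyF : y ∈ F := hyfix
    have hF : F = ⊤ := by_contra fun h => hx (hmax F hle h hyF)
    have hxF : σ • x = x := (hF ▸ Submodule.mem_top : x ∈ F)
    exact hx (by rw [hy, hxF, sub_self]; exact N.zero_mem)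
  -- at p
  obtain ⟨V₀, hV₀⟩ : ∃ V : ValuationSubring (AlgebraicClosure ℚ), V.LiesOverPrime p := by
    have hne : (Ideal.span {(p : ℤ)}).map (algebraMap ℤ FLTAgent.Common.ZBar) ≠ ⊤ := by
      intro h
      rw [Ideal.map_span, Set.image_singleton, Ideal.span_singleton_eq_top] at h
      obtain ⟨u, hu⟩ := h.exists_right_inv
      have hu' : (p : AlgebraicClosure ℚ) * (u : AlgebraicClosure ℚ) = 1 := by
        have := congrArg Subtype.val hu
        simpa using this
      have hp0 : (p : ℚ) ≠ 0 := Nat.cast_ne_zero.mpr hp.ne_zero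
      have hu2 : (u : AlgebraicClosure ℚ) = algebraMap ℚ (AlgebraicClosure ℚ) (1 / p) := by
        rw [map_div₀, map_one, map_natCast, eq_div_iff (by exact_mod_cast hp.ne_zero), mul_comm]
        exact hu'
      have hint : IsIntegral ℤ (1 / p : ℚ) := by
        rw [← isIntegral_algebraMap_iff (FaithfulSMul.algebraMap_injective ℚ (AlgebraicClosure ℚ)),
          ← hu2]
        exact u.2
      obtain ⟨n, hn⟩ := IsIntegrallyClosed.algebraMap_eq_of_integral hint
      have : n * p = 1 := by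
        have h3 : (n : ℚ) * p = 1 := by
          rw [show (n : ℚ) = 1 / p from hn]; field_simp
        exact_mod_cast h3
      have := Int.eq_one_of_mul_eq_one_left (by positivity) this
      omega
    obtain ⟨V, hV⟩ := Ideal.image_subset_nonunits_valuationSubring (K := AlgebraicClosure ℚ)
      (A := FLTAgent.Common.ZBar.toSubring) _ hne
    refine ⟨V, ?_⟩
    have := hV.2 ⟨algebraMap ℤ FLTAgent.Common.ZBar p,
      Ideal.mem_map_of_mem _ (Ideal.mem_span_singleton_self _), rfl⟩
    simpa [ValuationSubring.LiesOverPrime] using this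
  have hatp : V₀.inertiaSubgroupIn ℚ ≤ fixLine N ∨ V₀.inertiaSubgroupIn ℚ ≤ fixQuot hN := by
    let ι : Tors W p →+ QPoint W := (Submodule.subtype _).toAddMonoidHom
    let E0 : Submodule (ZMod p) (Tors W p) :=
      AddSubgroup.toZModSubmodule p ((zeroComp W V₀).comap ι)
    let E1 : Submodule (ZMod p) (Tors W p) :=
      AddSubgroup.toZModSubmodule p ((redKernel W V₀).comap ι)
    have hscal : ∀ σ : AlgebraicClosure ℚ ≃ₐ[ℚ] AlgebraicClosure ℚ, ∀ M : Submodule (ZMod p) (Tors W p), P₀ ∉ M → σ • P₀ - P₀ ∈ M →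
        σ • P₀ = P₀ := by
      intro σ M hM hσM
      obtain ⟨c, hc⟩ := hspan _ (hN σ _ hP₀N)
      rw [← hc]
      by_contra hne
      have hc1 : c - 1 ≠ 0 := fun e => hne (by rw [sub_eq_zero.mp e, one_smul])
      apply hM
      rw [← hc] at hσM
      have h3 := M.smul_mem (c - 1)⁻¹ hσM
      rwa [show c • P₀ - P₀ = (c - 1) • P₀ by rw [sub_smul, one_smul], smul_smul,
        inv_mul_cancel₀ hc1, one_smul] at h3
    by_cases h0 : P₀ ∈ E0
    · by_cases h1 : P₀ ∈ E1
      · right
        intro σ hσ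
        have hNE1 : N ≤ E1 := fun z hz => by
          obtain ⟨c, rfl⟩ := hspan z hz
          exact E1.smul_mem c h1
        have hE1 : E1 ≤ N := hmax E1 hNE1 (by
          intro htop
          obtain ⟨x, hx, hxnot⟩ := exists_torsion_not_mem_redKernel hΔ hV₀ hp (by omega)
            (nsmul_tors P₀) (fun e => hP₀ (Subtype.ext e)) hline
          exact hxnot (show mkTors x hx ∈ E1 from htop ▸ Submodule.mem_top))
        intro x
        by_cases hx0 : x ∈ E0
        · exact hE1 (show σ • x - x ∈ E1 from inertia_sub_mem_redKernel hσ hx0)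
        · have hE0 : E0 ≤ N := hmax E0 (fun z hz => by
            obtain ⟨c, rfl⟩ := hspan z hz
            exact E0.smul_mem c h0) (fun htop => hx0 (htop ▸ Submodule.mem_top))
          exact hE0 (show σ • x - x ∈ E0 from
            inertia_sub_mem_zeroComp hV₀ hp (hss p hp) hp hp2 hσ (nsmul_tors x))
      · left
        intro σ hσ
        exact hfix_of σ (hscal σ E1 h1 (inertia_sub_mem_redKernel hσ h0))
    · left
      intro σ hσ
      exact hfix_of σ (hscal σ E0 h0
        (inertia_sub_mem_zeroComp hV₀ hp (hss p hp) hp hp2 hσ (nsmul_tors P₀)))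
  rcases hatp with hline' | hquot
  · exfalso
    have htop : fixLine N = ⊤ := FLTAgent.Common.eq_top_of_inertia_le L _ hL1 (fun q hq V hV => by
      rcases eq_or_ne q p with rfl | hqp
      · exact FLTAgent.Common.inertia_le_of_inertia_le hq hV₀ hV hline'
      · exact (haway q hq hqp V hV).trans inf_le_left)
    refine hP₀ (Subtype.ext (rational_torsion_eq_zero_of_two h2 (hss 2 Nat.prime_two h2) hp hp5 hv
      (nsmul_tors P₀) (fun σ => ?_)))
    rw [← coe_smul, show σ • P₀ = P₀ from (htop ▸ Subgroup.mem_top σ : σ ∈ fixLine N) P₀ hP₀N]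
  · have htop : fixQuot hN = ⊤ := FLTAgent.Common.eq_top_of_inertia_le L _ hL2 (fun q hq V hV => by
      rcases eq_or_ne q p with rfl | hqp
      · exact FLTAgent.Common.inertia_le_of_inertia_le hq hV₀ hV hquot
      · exact (haway q hq hqp V hV).trans inf_le_right)
    exact ⟨N, hN, hNb, hNt, fun σ x => (htop ▸ Subgroup.mem_top σ : σ ∈ fixQuot hN) x⟩

end FLTAgent.Torsion
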