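import Fermat.Agent.Torsion.Count
import Fermat.Agent.Local.API
import Mathlib.FieldTheory.Minpoly.IsConjRoot
import Mathlib.FieldTheory.IsSepClosed
import Fermat.Agent.Common.EverywhereUnramified

set_option autoImplicit false

/-!
At a place over `p`, a Galois-stable line forces some `p`-torsion point out of the kernel of
reduction.
-/

noncomputable section

namespace FLTAgent.Torsion

open WeierstrassCurve FLTAgent.Local
open scoped WeierstrassCurve.Affine

/-- the curve over `QBar` of an integral model -/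
abbrev curveBar (W : WeierstrassCurve ℤ) : WeierstrassCurve (AlgebraicClosure ℚ) :=
  (W.map (Int.castRingHom ℚ))⁄(AlgebraicClosure ℚ)

lemma isElliptic_curveBar {W : WeierstrassCurve ℤ} (hΔ : W.Δ ≠ 0) :
    (curveBar W).IsElliptic := by
  constructor
  rw [isUnit_iff_ne_zero]
  simp [WeierstrassCurve.baseChange, WeierstrassCurve.map_Δ, hΔ]


lemma curveBar_eq (W : WeierstrassCurve ℤ) :
    curveBar W = W.map (Int.castRingHom (AlgebraicClosure ℚ)) := by
  simp only [curveBar, WeierstrassCurve.baseChange, WeierstrassCurve.map_map]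
  congr 1

/-- the x-coordinate (over `QBar`) -/
def xcoord {W : WeierstrassCurve ℤ} : QPoint W → AlgebraicClosure ℚ
  | 0 => 0
  | .some x _ _ => x

/-- the y-coordinate (over `QBar`) -/
def ycoord {W : WeierstrassCurve ℤ} : QPoint W → AlgebraicClosure ℚ
  | 0 => 0
  | .some _ y _ => y

lemma xcoord_eq_xc {W : WeierstrassCurve ℤ} (P : QPoint W) :
    xcoord P = xc (W := curveBar W) P := by
  rcases P with _ | ⟨x, y, h⟩ <;> rfl

lemma xcoord_smul {W : WeierstrassCurve ℤ} (σ : AlgebraicClosure ℚ ≃ₐ[ℚ] AlgebraicClosure ℚ)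
    (P : QPoint W) : xcoord (σ • P) = σ (xcoord P) ∧ ycoord (σ • P) = σ (ycoord P) := by
  rcases P with _ | ⟨x, y, h⟩
  · exact ⟨(map_zero σ).symm, (map_zero σ).symm⟩
  · exact ⟨rfl, rfl⟩

lemma valuation_sq_y {W : WeierstrassCurve ℤ} {A : ValuationSubring (AlgebraicClosure ℚ)}
    {x y : AlgebraicClosure ℚ} (h : (curveBar W).toAffine.Equation x y) (hx : 1 < A.valuation x) :
    A.valuation y ^ 2 = A.valuation x ^ 3 := by
  rw [curveBar_eq] at h
  rw [Affine.equation_iff] at h
  simp only [WeierstrassCurve.map_a₁, WeierstrassCurve.map_a₂, WeierstrassCurve.map_a₃,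
    WeierstrassCurve.map_a₄, WeierstrassCurve.map_a₆, eq_intCast] at h
  have hn : ∀ n : ℤ, A.valuation (n : AlgebraicClosure ℚ) ≤ 1 := fun n =>
    (A.valuation_le_one_iff _).mpr (intCast_mem _ _)
  set v := A.valuation with hv
  have hx0 : (0 : A.ValueGroup) < v x := lt_trans zero_lt_one hx
  have h23 : v x ^ 2 < v x ^ 3 := pow_lt_pow_right₀ hx (by norm_num)
  have h12 : v x ≤ v x ^ 2 := le_self_pow₀ hx.le (by norm_num)
  have b2 : v ((W.a₂ : AlgebraicClosure ℚ) * x ^ 2) < v x ^ 3 := by
    rw [map_mul, map_pow]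
    exact lt_of_le_of_lt (mul_le_of_le_one_left zero_le (hn _)) h23
  have b4 : v ((W.a₄ : AlgebraicClosure ℚ) * x) < v x ^ 3 := by
    rw [map_mul]
    exact lt_of_le_of_lt ((mul_le_of_le_one_left zero_le (hn _)).trans h12) h23
  have b6 : v ((W.a₆ : AlgebraicClosure ℚ)) < v x ^ 3 :=
    lt_of_le_of_lt ((hn _).trans (hx.le.trans h12)) h23
  have hR : v (x ^ 3 + (W.a₂ : AlgebraicClosure ℚ) * x ^ 2 + (W.a₄ : AlgebraicClosure ℚ) * x
      + (W.a₆ : AlgebraicClosure ℚ)) = v x ^ 3 := by
    rw [Valuation.map_add_eq_of_lt_left, Valuation.map_add_eq_of_lt_left,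
      Valuation.map_add_eq_of_lt_left, map_pow]
    · rw [map_pow]; exact b2
    · rw [Valuation.map_add_eq_of_lt_left, map_pow]
      · exact b4
      · rw [map_pow]; exact b2
    · rw [Valuation.map_add_eq_of_lt_left, Valuation.map_add_eq_of_lt_left, map_pow]
      · exact b6
      · rw [map_pow]; exact b2
      · rw [Valuation.map_add_eq_of_lt_left, map_pow]
        · exact b4
        · rw [map_pow]; exact b2
  have hyx : v x < v y := by
    by_contra hle
    push Not at hle
    have : v x ^ 3 ≤ v x ^ 2 := by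
      rw [← hR, ← h]
      refine (v.map_add _ _).trans (max_le ((v.map_add _ _).trans (max_le ?_ ?_)) ?_)
      · rw [map_pow]; exact pow_le_pow_left₀ zero_le hle 2
      · rw [map_mul, map_mul, sq]
        exact mul_le_mul' (mul_le_of_le_one_left zero_le (hn _)) hle
      · rw [map_mul]
        exact (mul_le_of_le_one_left zero_le (hn _)).trans (hle.trans h12)
    exact absurd this (not_le.mpr h23)
  have hy1 : 1 < v y := hx.trans hyx
  have c1 : v ((W.a₁ : AlgebraicClosure ℚ) * x * y) < v y ^ 2 := by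
    rw [map_mul, map_mul, sq]
    refine lt_of_le_of_lt (mul_le_mul_left (mul_le_of_le_one_left zero_le (hn _)) _) ?_
    exact mul_lt_mul_of_pos_right hyx (lt_trans zero_lt_one hy1)
  have c3 : v ((W.a₃ : AlgebraicClosure ℚ) * y) < v y ^ 2 := by
    rw [map_mul]
    exact lt_of_le_of_lt (mul_le_of_le_one_left zero_le (hn _))
      (lt_self_pow₀ hy1 (by norm_num))
  rw [← hR, ← h, Valuation.map_add_eq_of_lt_left, Valuation.map_add_eq_of_lt_left, map_pow]
  · rw [map_pow]; exact c1
  · rw [Valuation.map_add_eq_of_lt_left, map_pow]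
    · exact c3
    · rw [map_pow]; exact c1

theorem exists_torsion_not_mem_redKernel {W : WeierstrassCurve ℤ} (hΔ : W.Δ ≠ 0)
    {A : ValuationSubring (AlgebraicClosure ℚ)} {p : ℕ} (hA : A.LiesOverPrime p) (hp : p.Prime)
    (hp3 : 3 ≤ p) {P₀ : QPoint W} (hP₀ : p • P₀ = 0) (hne : P₀ ≠ 0)
    (hline : ∀ σ : AlgebraicClosure ℚ ≃ₐ[ℚ] AlgebraicClosure ℚ, ∃ m : ℕ, σ • P₀ = m • P₀) :
    ∃ x : QPoint W, p • x = 0 ∧ x ∉ redKernel W A := by
  classical
  by_contra hall
  push Not at hall
  have := FLTAgent.Common.isAlgebraic_qbar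
  have := isElliptic_curveBar hΔ
  have hodd : Odd p := hp.odd_of_ne_two (by omega)
  obtain ⟨h, hh⟩ := hodd
  set v := A.valuation with hv
  have hbig : ∀ Q : QPoint W, p • Q = 0 → Q ≠ 0 → 1 < v (xcoord Q) := by
    intro Q hQ hQ0
    rcases hall Q hQ with h0 | ⟨x, y, hns, rfl, hxA⟩
    · exact absurd h0 hQ0
    · rw [← not_le, A.valuation_le_one_iff]
      exact hxA
  -- the polynomial
  set f : Polynomial (AlgebraicClosure ℚ) := (curveBar W).preΨ' p with hfdef
  have hpne : (p : AlgebraicClosure ℚ) ≠ 0 := Nat.cast_ne_zero.mpr hp.ne_zero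
  have hnot : ¬ Even p := by simp [hh]
  have hlead : f.leadingCoeff = (p : AlgebraicClosure ℚ) := by
    rw [hfdef, leadingCoeff_preΨ' _ hpne, if_neg hnot]
  have hdeg : f.natDegree = (p ^ 2 - 1) / 2 := by
    rw [hfdef, natDegree_preΨ' _ hpne, if_neg hnot]
  have hf0 : f ≠ 0 := by intro e; rw [e, Polynomial.leadingCoeff_zero] at hlead; exact hpne hlead.symm
  have hΨ : ∀ r, ((curveBar W).ΨSq (p : ℤ)).eval r = f.eval r ^ 2 := fun r => by
    rw [WeierstrassCurve.ΨSq_ofNat, if_neg hnot]; simp [hfdef]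
  have hroots : ∀ r ∈ f.roots, 1 < v r := by
    intro r hr
    rw [Polynomial.mem_roots hf0] at hr
    obtain ⟨y, hy⟩ := exists_nonsingular (curveBar W) r
    have hQ : p • (Affine.Point.some r y hy : QPoint W) = 0 :=
      (nsmul_eq_zero_iff (W := curveBar W) hy p).mpr (by rw [hΨ, hr]; simp)
    exact hbig _ hQ (Affine.Point.some_ne_zero _)
  -- multiples of P₀
  have hmul_ne : ∀ k : ℕ, ¬ p ∣ k → k • P₀ ≠ 0 := by
    intro k hk e
    apply hk
    rcases (Nat.dvd_prime hp).mp (addOrderOf_dvd_of_nsmul_eq_zero hP₀) with h1 | h1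
    · exact absurd (AddMonoid.addOrderOf_eq_one_iff.mp h1) hne
    · rw [← h1]; exact addOrderOf_dvd_of_nsmul_eq_zero e
  have hpk : ∀ k : ℕ, p • (k • P₀) = 0 := fun k => by rw [nsmul_left_comm, hP₀, nsmul_zero]
  have hndvd : ∀ k ∈ Finset.Icc 1 h, ¬ p ∣ k := fun k hk e => by
    rw [Finset.mem_Icc] at hk
    have := Nat.le_of_dvd (by omega) e; omega
  set S : Finset (AlgebraicClosure ℚ) := (Finset.Icc 1 h).image (fun k => xcoord (k • P₀)) with hS
  have hinj : Set.InjOn (fun k : ℕ => xcoord (k • P₀)) (↑(Finset.Icc 1 h) : Set ℕ) := by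
    intro a ha b hb e
    simp only [xcoord_eq_xc] at e
    have h1 := eq_or_eq_neg_of_xc_eq (hmul_ne a (hndvd a ha)) (hmul_ne b (hndvd b hb)) e
    rw [Finset.mem_coe, Finset.mem_Icc] at ha hb
    rcases h1 with h1 | h1
    · by_contra hab
      rcases Nat.lt_or_gt_of_ne hab with hlt | hlt
      · refine hmul_ne (b - a) (fun e => by have := Nat.le_of_dvd (by omega) e; omega) ?_
        rw [sub_nsmul _ hlt.le, h1, add_neg_cancel]
      · refine hmul_ne (a - b) (fun e => by have := Nat.le_of_dvd (by omega) e; omega) ?_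
        rw [sub_nsmul _ hlt.le, h1, add_neg_cancel]
    · exfalso
      refine hmul_ne (a + b) (fun e => by have := Nat.le_of_dvd (by omega) e; omega) ?_
      rw [add_nsmul, h1, neg_add_cancel]
  have hScard : S.card = h := by
    rw [hS, Finset.card_image_of_injOn hinj, Nat.card_Icc]; omega
  have hSsub : S.val ≤ f.roots := by
    rw [Multiset.le_iff_subset S.nodup]
    intro r hr
    rw [Finset.mem_val, hS, Finset.mem_image] at hr
    obtain ⟨k, hk, rfl⟩ := hr
    obtain ⟨x, y, hns, he, hx⟩ :=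
      exists_some_of_ne_zero (W := curveBar W) (hmul_ne k (hndvd k hk))
    rw [Polynomial.mem_roots hf0, xcoord_eq_xc, hx]
    have := (nsmul_eq_zero_iff (W := curveBar W) hns p).mp (by rw [← he]; exact hpk k)
    rw [hΨ] at this
    exact pow_eq_zero_iff (n := 2) (by norm_num) |>.mp this
  -- the lower bound at the points of the line
  have hkey : ∀ k ∈ Finset.Icc 1 h, 1 ≤ v (p : AlgebraicClosure ℚ) * v (xcoord (k • P₀)) ^ h := by
    intro k hk
    set Q := k • P₀ with hQdef
    have hQne : Q ≠ 0 := hmul_ne k (hndvd k hk)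
    obtain ⟨x, y, hns, he, -⟩ := exists_some_of_ne_zero (W := curveBar W) hQne
    have hvx : 1 < v x := by
      have := hbig Q (hpk k) hQne
      rwa [he] at this
    have hy2 := valuation_sq_y hns.1 hvx
    set z := x / y with hz
    have hvz : v z ^ 2 * v x = 1 := by
      rw [hz, map_div₀, div_pow, hv, hy2]
      have : A.valuation x ≠ 0 := ne_of_gt (lt_trans zero_lt_one hvx)
      field_simp
    have hvz1 : v z < 1 := by
      by_contra hcon
      push Not at hcon
      have : 1 * v x ≤ v z ^ 2 * v x := mul_le_mul_left (one_le_pow_of_one_le' hcon 2) _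
      rw [one_mul, hvz] at this
      exact absurd this (not_le.mpr hvx)
    set T : Finset (AlgebraicClosure ℚ) :=
      (Finset.Ico 1 p).image (fun j => xcoord (j • P₀) / ycoord (j • P₀)) with hT
    have hdeg : (minpoly ℚ z).natDegree ≤ p - 1 := by
      have hint : IsIntegral ℚ z := Algebra.IsIntegral.isIntegral z
      have hsep : (minpoly ℚ z).Separable :=
        (minpoly.irreducible hint).separable
      rw [← Polynomial.card_rootSet_eq_natDegree (K := AlgebraicClosure ℚ) hsep (IsAlgClosed.splits _)]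
      refine le_trans ?_ (le_trans (Finset.card_image_le (s := Finset.Ico 1 p)
        (f := fun j => xcoord (j • P₀) / ycoord (j • P₀))) (by rw [Nat.card_Ico]))
      rw [← Fintype.card_coe]
      have hnormal : Normal ℚ (AlgebraicClosure ℚ) := FLTAgent.Common.isGalois_qbar.to_normal
      have hsub : ∀ r ∈ (minpoly ℚ z).rootSet (AlgebraicClosure ℚ), r ∈ T := by
        intro r hr
        have hconj := (isConjRoot_iff_mem_minpoly_rootSet hint).mpr hr
        obtain ⟨σ, hσ⟩ := isConjRoot_iff_exists_algEquiv.mp hconj.symm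
        obtain ⟨m, hm⟩ := hline σ
        have hσQ : σ • Q = (m * k % p) • P₀ := by
          have e1 : σ • Q = k • (σ • P₀) := map_nsmul (Affine.Point.map σ.toAlgHom) k P₀
          have e2 : (m * k) • P₀ = (m * k % p) • P₀ := by
            conv_lhs => rw [← Nat.mod_add_div (m * k) p, add_nsmul, mul_nsmul, hP₀, nsmul_zero,
              add_zero]
          rw [e1, hm, ← mul_nsmul, e2]
        have hσne : σ • Q ≠ 0 := by
          intro e
          exact hQne (by rw [← inv_smul_smul σ Q, e]; exact (Affine.Point.map σ⁻¹.toAlgHom).map_zero)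
        rw [hT, Finset.mem_image]
        refine ⟨m * k % p, ?_, ?_⟩
        · rw [Finset.mem_Ico]
          refine ⟨Nat.one_le_iff_ne_zero.mpr fun e => hσne ?_, Nat.mod_lt _ hp.pos⟩
          rw [hσQ, e, zero_nsmul]
        · rw [← hσQ, (xcoord_smul σ Q).1, (xcoord_smul σ Q).2, ← hσ, hz, map_div₀, he]
          rfl
      exact Fintype.card_le_of_injective (fun r => ⟨r.1, hsub r.1 r.2⟩)
        (fun a b e => Subtype.ext (Subtype.mk_eq_mk.mp e))
    have hd := valuation_pow_le_of_natDegree_le hA hp z hdeg hvz1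
    have hp1 : p - 1 = 2 * h := by omega
    rw [hp1, pow_mul] at hd
    have hx' : xcoord Q = x := by rw [he]; rfl
    rw [hx']
    calc (1 : A.ValueGroup) = (v z ^ 2 * v x) ^ h := by rw [hvz, one_pow]
      _ = (v z ^ 2) ^ h * v x ^ h := mul_pow _ _ _
      _ ≤ v (p : AlgebraicClosure ℚ) * v x ^ h := mul_le_mul_left hd _
  -- combine
  have hprod : v (p : AlgebraicClosure ℚ) * (f.roots.map v).prod ≤ 1 := by
    have e := (IsAlgClosed.splits f).coeff_zero_eq_leadingCoeff_mul_prod_roots
    have hc : v (f.coeff 0) ≤ 1 := by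
      rw [A.valuation_le_one_iff, hfdef, curveBar_eq, WeierstrassCurve.map_preΨ',
        Polynomial.coeff_map]
      exact intCast_mem _ _
    rw [e, hlead, map_mul, map_mul, map_pow, Valuation.map_neg, map_one, one_pow, one_mul,
      map_multiset_prod] at hc
    exact hc
  obtain ⟨rest, hrest⟩ := Multiset.le_iff_exists_add.mp hSsub
  have hrestne : rest ≠ 0 := by
    intro e
    rw [e, add_zero] at hrest
    have hc := congrArg Multiset.card hrest
    rw [IsAlgClosed.card_roots_eq_natDegree, hdeg, Finset.card_val, hScard] at hc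
    have : p ^ 2 - 1 = 4 * h * h + 4 * h := by
      subst hh; ring_nf; omega
    omega
  obtain ⟨k₀, hk₀, hmin⟩ := Finset.exists_min_image (Finset.Icc 1 h)
    (fun k => v (xcoord (k • P₀))) ⟨1, by rw [Finset.mem_Icc]; omega⟩
  have hSprod : v (xcoord (k₀ • P₀)) ^ h ≤ (S.val.map v).prod := by
    rw [← Finset.prod_eq_multiset_prod, hS, Finset.prod_image hinj]
    calc v (xcoord (k₀ • P₀)) ^ h = ∏ _k ∈ Finset.Icc 1 h, v (xcoord (k₀ • P₀)) := by
          rw [Finset.prod_const, Nat.card_Icc]; congr 1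
      _ ≤ _ := Finset.prod_le_prod' (fun k hk => hmin k hk)
  have hgt : 1 < (rest.map v).prod := by
    obtain ⟨r, hr⟩ := Multiset.exists_mem_of_ne_zero hrestne
    obtain ⟨t, rfl⟩ := Multiset.exists_cons_of_mem hr
    rw [Multiset.map_cons, Multiset.prod_cons]
    refine one_lt_mul_of_lt_of_le (hroots r (by rw [hrest]; simp)) (Multiset.one_le_prod ?_)
    intro a ha
    rw [Multiset.mem_map] at ha
    obtain ⟨b, hb, rfl⟩ := ha
    exact (hroots b (by rw [hrest]; simp [hb])).le
  rw [hrest, Multiset.map_add, Multiset.prod_add, ← mul_assoc] at hprod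
  have h1 : (1 : A.ValueGroup) ≤ v (p : AlgebraicClosure ℚ) * (S.val.map v).prod :=
    (hkey k₀ hk₀).trans (mul_le_mul_right hSprod _)
  exact absurd (lt_of_lt_of_le (lt_of_lt_of_le hgt (le_mul_of_one_le_left' h1)) hprod)
    (lt_irrefl _)

end FLTAgent.Torsion
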