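import Mathlib.AlgebraicGeometry.EllipticCurve.Affine.Point
import Mathlib.AlgebraicGeometry.EllipticCurve.DivisionPolynomial.Degree
import Mathlib.Tactic.LinearCombination
import Mathlib.Tactic.FieldSimp

set_option autoImplicit false

/-!
Sum and product of the x-coordinates of `Q + P` and `Q - P`.
-/

namespace FLTAgent.Torsion

open WeierstrassCurve WeierstrassCurve.Affine

variable {F : Type*} [Field F] (W : WeierstrassCurve F)

/-- numerator of the sum of `x(Q+P)` and `x(Q-P)` -/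
def sumNum (u v : F) : F := 2 * u * v * (u + v) + W.b₂ * u * v + W.b₄ * (u + v) + W.b₆

/-- numerator of the product of `x(Q+P)` and `x(Q-P)` -/
def prodNum (u v : F) : F := u ^ 2 * v ^ 2 - W.b₄ * u * v - W.b₆ * (u + v) - W.b₈

/-- symmetric triquadratic form -/
def triForm (r u v : F) : F := (u - v) ^ 2 * r ^ 2 - sumNum W u v * r + prodNum W u v

lemma triForm_swap (r u v : F) : triForm W r u v = triForm W u r v := by
  simp only [triForm, sumNum, prodNum]; ring

lemma sumNum_self (x : F) : sumNum W x x = W.Ψ₂Sq.eval x := by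
  simp [sumNum, WeierstrassCurve.Ψ₂Sq]; ring

/-- the partial derivative with respect to `Y` -/
def pY (x y : F) : F := 2 * y + W.a₁ * x + W.a₃

/-- the partial derivative with respect to `X` -/
def pX (x y : F) : F := W.a₁ * y - (3 * x ^ 2 + 2 * W.a₂ * x + W.a₄)

variable {W}

lemma pY_sq {x y : F} (h : W.toAffine.Equation x y) : pY W x y ^ 2 = W.Ψ₂Sq.eval x := by
  rw [equation_iff] at h
  simp [pY, WeierstrassCurve.Ψ₂Sq, b₂, b₄, b₆]
  linear_combination (4 : F) * h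

lemma sub_negY_eq_pY (x y : F) : y - W.toAffine.negY x y = pY W x y := by
  simp [Affine.negY, pY]; ring

lemma eq_negY_iff_pY {x y : F} : y = W.toAffine.negY x y ↔ pY W x y = 0 := by
  rw [← sub_negY_eq_pY, sub_eq_zero]

lemma doubling_num {x y : F} (h : W.toAffine.Equation x y) :
    (W.Φ 2).eval x
      = pX W x y ^ 2 - W.a₁ * pX W x y * pY W x y - (W.a₂ + 2 * x) * pY W x y ^ 2 := by
  rw [equation_iff] at h
  simp [pX, pY, b₄, b₆, b₈]
  linear_combination (W.a₁ ^ 2 + 4 * W.a₂ + 8 * x) * h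

variable [DecidableEq F]

set_option linter.unusedSectionVars false

/-- The x-coordinate of a point, `0` at the origin. -/
def xc : W.toAffine.Point → F
  | 0 => 0
  | .some x _ _ => x

@[simp] lemma xc_some {x y : F} (h : W.toAffine.Nonsingular x y) :
    xc (Point.some x y h) = x := rfl

@[simp] lemma xc_neg (Q : W.toAffine.Point) : xc (-Q) = xc Q := by
  rcases Q with _ | ⟨x, y, h⟩
  · rfl
  · rfl

lemma exists_some_of_ne_zero {Q : W.toAffine.Point} (hQ : Q ≠ 0) :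
    ∃ x y, ∃ h : W.toAffine.Nonsingular x y, Q = Point.some x y h ∧ xc Q = x := by
  rcases Q with _ | ⟨x, y, h⟩
  · exact absurd rfl hQ
  · exact ⟨x, y, h, rfl, rfl⟩

lemma eq_or_eq_neg_of_xc_eq {Q R : W.toAffine.Point} (hQ : Q ≠ 0) (hR : R ≠ 0)
    (h : xc Q = xc R) : Q = R ∨ Q = -R := by
  obtain ⟨x, y, hh, rfl, -⟩ := exists_some_of_ne_zero hQ
  obtain ⟨x', y', hh', rfl, -⟩ := exists_some_of_ne_zero hR
  exact Point.X_eq_iff.mp h

theorem xc_add_sub {Q P : W.toAffine.Point} (hQ : Q ≠ 0) (hP : P ≠ 0) (hne : xc Q ≠ xc P) :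
    Q + P ≠ 0 ∧ Q - P ≠ 0 ∧
    (xc (Q + P) + xc (Q - P)) * (xc Q - xc P) ^ 2 = sumNum W (xc Q) (xc P) ∧
    (xc (Q + P) * xc (Q - P)) * (xc Q - xc P) ^ 2 = prodNum W (xc Q) (xc P) := by
  obtain ⟨u, s, hu, rfl, -⟩ := exists_some_of_ne_zero hQ
  obtain ⟨v, t, hv, rfl, -⟩ := exists_some_of_ne_zero hP
  simp only [xc_some] at hne ⊢
  rw [sub_eq_add_neg, Point.neg_some, Point.add_of_X_ne hne, Point.add_of_X_ne hne]
  refine ⟨Point.some_ne_zero _, Point.some_ne_zero _, ?_, ?_⟩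
  all_goals
    simp only [xc_some]
    rw [slope_of_X_ne hne, slope_of_X_ne hne]
    have e1 := (equation_iff _ _).mp hu.1
    have e2 := (equation_iff _ _).mp hv.1
    have hd : u - v ≠ 0 := sub_ne_zero.mpr hne
    simp only [sumNum, prodNum, Affine.addX, Affine.negY, b₂, b₄, b₆, b₈]
    field_simp
  · linear_combination (2 : F) * e1 + (2 : F) * e2
  · linear_combination
      (2 * (u - v) * ((u ^ 2 + u * v + v ^ 2 + W.a₂ * (u + v) + W.a₄) - W.a₁ * s)
        + ((s ^ 2 + W.a₁ * u * s + W.a₃ * s - (u ^ 3 + W.a₂ * u ^ 2 + W.a₄ * u + W.a₆))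
          - (t ^ 2 + W.a₁ * v * t + W.a₃ * t - (v ^ 3 + W.a₂ * v ^ 2 + W.a₄ * v + W.a₆)))
        + W.a₁ * (u - v) * (2 * s + W.a₁ * v + W.a₃) + W.a₁ ^ 2 * (u - v) ^ 2
        + 2 * (W.a₂ + u + v) * (u - v) ^ 2) * (e1 - e2)
      - (4 * (W.a₂ + u + v) + W.a₁ ^ 2) * (u - v) ^ 2 * e1

theorem xc_two {x y : F} {h : W.toAffine.Nonsingular x y} (hy : pY W x y ≠ 0) :
    (Point.some x y h) + (Point.some x y h) ≠ 0 ∧
    xc ((Point.some x y h) + (Point.some x y h)) * pY W x y ^ 2 = (W.Φ 2).eval x := by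
  have hne : y ≠ W.toAffine.negY x y := fun e => hy (eq_negY_iff_pY.mp e)
  rw [Point.add_self_of_Y_ne hne]
  refine ⟨Point.some_ne_zero _, ?_⟩
  rw [xc_some, slope_of_Y_ne rfl hne, sub_negY_eq_pY, doubling_num h.1]
  have : (3 * x ^ 2 + 2 * W.a₂ * x + W.a₄ - W.a₁ * y) = -pX W x y := by simp [pX]
  rw [this]
  simp only [Affine.addX]
  field_simp
  ring

end FLTAgent.Torsion
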