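import Fermat.Agent.Torsion.Universal

set_option autoImplicit false
set_option linter.unusedSectionVars false

/-!
Multiplication by `n` on points in terms of the division polynomials.
-/

namespace FLTAgent.Torsion

open WeierstrassCurve WeierstrassCurve.Affine

variable {F : Type*} [Field F] [DecidableEq F] {W : WeierstrassCurve F}

section

variable {x y : F} {h : W.toAffine.Nonsingular x y}

lemma psiV_three_ne_zero_of_two (h : W.toAffine.Nonsingular x y) (h2 : pY W x y = 0) :
    W.Ψ₃.eval x ≠ 0 := by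
  have hX : pX W x y ≠ 0 := by
    rcases h.2 with h' | h'
    · intro e
      apply h'
      rw [evalEval_polynomialX]
      simpa [pX] using e
    · exfalso
      apply h'
      rw [evalEval_polynomialY]
      simpa [pY] using h2
  rw [eval_Ψ₃_eq, ← pY_sq h.1, doubling_num h.1, h2]
  simpa using hX

lemma psiV_even_of_two (h2 : pY W x y = 0) (k : ℤ) : psiV W x y (2 * k) = 0 := by
  simp [psiV, normEDS, h2, even_two_mul k]

lemma psiV_rel (hE : W.toAffine.Equation x y) (a b : ℤ) :
    psiV W x y (a + b) * psiV W x y (a - b)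
      = psiV W x y (a + 1) * psiV W x y (a - 1) * psiV W x y b ^ 2
      - psiV W x y (b + 1) * psiV W x y (b - 1) * psiV W x y a ^ 2 :=
  psiR_relation hE a b

lemma psiV_rel₃ (hE : W.toAffine.Equation x y) (a b c : ℤ) :
    psiV W x y (a + b) * psiV W x y (a - b) * psiV W x y c ^ 2
      + psiV W x y (b + c) * psiV W x y (b - c) * psiV W x y a ^ 2
      + psiV W x y (c + a) * psiV W x y (c - a) * psiV W x y b ^ 2 = 0 :=
  psiR_relation₃ hE a b c

theorem first_zero {P : W.toAffine.Point} (hPdef : P = Point.some x y h) {d : ℕ} (hd : 1 ≤ d)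
    (hzero : psiV W x y d = 0) (hmin : ∀ k : ℕ, 1 ≤ k → k < d → psiV W x y k ≠ 0) :
    2 ≤ d ∧ d • P = 0 ∧ psiV W x y ((d : ℤ) + 1) * psiV W x y ((d : ℤ) - 1) ≠ 0 := by
  have hd2 : 2 ≤ d := by
    by_contra hlt
    obtain rfl : d = 1 := by omega
    simp [psiV_one] at hzero
  rcases eq_or_ne d 2 with rfl | hne2
  · have h2 : pY W x y = 0 := by simpa [psiV_two] using hzero
    refine ⟨le_rfl, ?_, ?_⟩
    · rw [two_nsmul, hPdef]
      exact Point.add_self_of_Y_eq (eq_negY_iff_pY.mpr h2)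
    · norm_num [psiV_one, psiV_three]
      exact psiV_three_ne_zero_of_two h h2
  have hd3 : 3 ≤ d := by omega
  have hpY : pY W x y ≠ 0 := by simpa [psiV_two] using hmin 2 (by omega) (by omega)
  have hm1 : psiV W x y ((d : ℤ) - 1) ≠ 0 := by
    have := hmin (d - 1) (by omega) (by omega)
    rwa [Nat.cast_sub (by omega), Nat.cast_one] at this
  have R := range_main hPdef (d - 1) (fun k hk hk' => hmin k hk (by omega))
  obtain ⟨hne, hf⟩ := R (d - 1) (by omega) le_rfl
  rw [Nat.cast_sub (by omega), Nat.cast_one, sub_add_cancel, hzero, zero_mul] at hf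
  have hx : xk P (d - 1) = x :=
    (sub_eq_zero.mp ((mul_eq_zero.mp hf.symm).resolve_right (pow_ne_zero 2 hm1))).symm
  have hP0 : P ≠ 0 := by rw [hPdef]; exact Point.some_ne_zero _
  have hdP : d • P = 0 := by
    rcases eq_or_eq_neg_of_xc_eq hne hP0 (by rw [hPdef] at hx ⊢; simpa [xk] using hx) with e | e
    · exfalso
      apply (R (d - 2) (by omega) (by omega)).1
      have : (d - 2) • P + P = P := by
        rw [← succ_nsmul, show d - 2 + 1 = d - 1 by omega, e]
      simpa using this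
    · rw [show d = d - 1 + 1 by omega, succ_nsmul, e, neg_add_cancel]
  refine ⟨hd2, hdP, mul_ne_zero ?_ hm1⟩
  rcases eq_or_ne d 3 with rfl | hne3
  · have h3 : W.Ψ₃.eval x = 0 := by simpa [psiV_three] using hzero
    have e4 := eval_preΨ₄_eq (W := W) x
    have e3 := eval_Ψ₃_eq (W := W) x
    rw [h3] at e3
    have hB : W.Ψ₂Sq.eval x ≠ 0 := by rw [← pY_sq h.1]; exact pow_ne_zero _ hpY
    have hΦ : (W.Φ 2).eval x = x * W.Ψ₂Sq.eval x := by linear_combination e3
    have key : W.preΨ₄.eval x * W.Ψ₂Sq.eval x = - W.Ψ₂Sq.eval x ^ 3 := by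
      rw [e4, h3, hΦ]
      simp [WeierstrassCurve.Ψ₂Sq]
      ring
    norm_num [psiV_four]
    refine ⟨fun e => hB ?_, hpY⟩
    rw [e, zero_mul, eq_comm, neg_eq_zero] at key
    exact eq_zero_of_pow_eq_zero key
  · intro e
    have r := psiV_rel h.1 ((d : ℤ) - 1) 2
    rw [show (d : ℤ) - 1 + 2 = d + 1 by ring, e, show (d : ℤ) - 1 + 1 = d by ring, hzero,
      show (2 : ℤ) + 1 = 3 by norm_num, show (2 : ℤ) - 1 = 1 by norm_num, psiV_one,
      psiV_three] at r
    have h3 : W.Ψ₃.eval x ≠ 0 := by simpa [psiV_three] using hmin 3 (by omega) (by omega)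
    apply mul_ne_zero h3 (pow_ne_zero 2 hm1)
    linear_combination r

theorem zero_iff_dvd {P : W.toAffine.Point} (hPdef : P = Point.some x y h) {d : ℕ} (hd : 1 ≤ d)
    (hzero : psiV W x y d = 0) (hmin : ∀ k : ℕ, 1 ≤ k → k < d → psiV W x y k ≠ 0) (n : ℤ) :
    psiV W x y n = 0 ↔ (d : ℤ) ∣ n := by
  obtain ⟨hd2, -, hs⟩ := first_zero hPdef hd hzero hmin
  have shift : ∀ n : ℤ, psiV W x y n ≠ 0 →
      psiV W x y (n + d) ≠ 0 ∧ psiV W x y (n - d) ≠ 0 := by
    intro n hn
    have r := psiV_rel h.1 n d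
    rw [hzero] at r
    have : psiV W x y (n + d) * psiV W x y (n - d) ≠ 0 := by
      rw [r]
      intro e
      exact mul_ne_zero hs (pow_ne_zero 2 hn) (by linear_combination -e)
    exact mul_ne_zero_iff.mp this
  have nonmult : ∀ n : ℤ, ¬ (d : ℤ) ∣ n → psiV W x y n ≠ 0 := by
    have hq : ∀ q : ℤ, ∀ r : ℕ, 1 ≤ r → r < d → psiV W x y (r + d * q) ≠ 0 := by
      intro q
      induction q with
      | zero => intro r hr hr'; simpa using hmin r hr hr'
      | succ i hi =>
        intro r hr hr'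
        rw [show (r : ℤ) + d * ((i : ℤ) + 1) = r + d * i + d by ring]
        exact (shift _ (hi r hr hr')).1
      | pred i hi =>
        intro r hr hr'
        rw [show (r : ℤ) + d * (-(i : ℤ) - 1) = r + d * (-(i : ℤ)) - d by ring]
        exact (shift _ (hi r hr hr')).2
    intro n hn
    have h1 := Int.emod_add_mul_ediv n d
    have h2 := Int.emod_nonneg n (show (d : ℤ) ≠ 0 by omega)
    have h3 := Int.emod_lt_of_pos n (show (0 : ℤ) < d by omega)
    have h4 : n % d ≠ 0 := fun e => hn (Int.dvd_of_emod_eq_zero e)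
    have := hq (n / d) (n % (d : ℤ)).toNat (by omega) (by omega)
    rwa [Int.toNat_of_nonneg h2, h1] at this
  refine ⟨fun e => by_contra fun hc => nonmult n hc e, ?_⟩
  have hmult : ∀ k : ℕ, psiV W x y ((d : ℤ) * k) = 0 := by
    intro k
    induction k with
    | zero => simpa using psiV_zero x y
    | succ k IH =>
      rcases eq_or_ne d 2 with rfl | hne2
      · have h2 : pY W x y = 0 := by simpa [psiV_two] using hzero
        exact psiV_even_of_two h2 _
      rcases Nat.eq_zero_or_pos k with rfl | hk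
      · simpa using hzero
      have r := psiV_rel₃ h.1 ((d : ℤ) * ((k + 1 : ℕ) : ℤ) - 1) 1 ((d : ℤ) - 1)
      push_cast at r IH ⊢
      rw [show (1 : ℤ) + ((d : ℤ) - 1) = d by ring, hzero,
        show (d : ℤ) - 1 - ((d : ℤ) * ((k : ℤ) + 1) - 1) = -((d : ℤ) * k) by ring, psiV_neg, IH,
        show (d : ℤ) * ((k : ℤ) + 1) - 1 + 1 = (d : ℤ) * ((k : ℤ) + 1) by ring] at r
      have n1 : psiV W x y ((d : ℤ) * ((k : ℤ) + 1) - 1 - 1) ≠ 0 := nonmult _ fun hdiv => by
        have h5 := dvd_sub (dvd_mul_right (d : ℤ) ((k : ℤ) + 1)) hdiv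
        rw [show (d : ℤ) * ((k : ℤ) + 1) - ((d : ℤ) * ((k : ℤ) + 1) - 1 - 1) = 2 by ring] at h5
        have := Int.le_of_dvd (by norm_num) h5
        omega
      have n2 : psiV W x y ((d : ℤ) - 1) ≠ 0 := nonmult _ fun hdiv => by
        have h5 := dvd_sub (dvd_refl (d : ℤ)) hdiv
        rw [show (d : ℤ) - ((d : ℤ) - 1) = 1 by ring] at h5
        have := Int.le_of_dvd (by norm_num) h5
        omega
      simpa [n1, n2] using r
  rintro ⟨k, rfl⟩
  obtain ⟨j, rfl | rfl⟩ := Int.eq_nat_or_neg k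
  · exact hmult j
  · rw [mul_neg, psiV_neg, hmult j, neg_zero]

theorem nsmul_formula {P : W.toAffine.Point} (hPdef : P = Point.some x y h) (n : ℕ) :
    (n • P = 0 ↔ psiV W x y n = 0) ∧
    (psiV W x y n ≠ 0 →
      xk P n * psiV W x y n ^ 2 =
        x * psiV W x y n ^ 2 - psiV W x y ((n : ℤ) + 1) * psiV W x y ((n : ℤ) - 1)) := by
  classical
  rcases Nat.eq_zero_or_pos n with rfl | hn
  · simp [psiV_zero]
  by_cases hz : ∃ d : ℕ, 1 ≤ d ∧ psiV W x y d = 0
  · have hd : 1 ≤ Nat.find hz := (Nat.find_spec hz).1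
    have hzero : psiV W x y (Nat.find hz) = 0 := (Nat.find_spec hz).2
    have hmin : ∀ k : ℕ, 1 ≤ k → k < Nat.find hz → psiV W x y k ≠ 0 :=
      fun k hk hk' e => Nat.find_min hz hk' ⟨hk, e⟩
    generalize Nat.find hz = d at hd hzero hmin
    obtain ⟨hd2, hdP, hs⟩ := first_zero hPdef hd hzero hmin
    have hiff := zero_iff_dvd hPdef hd hzero hmin
    have hmod : n • P = (n % d) • P := by
      conv_lhs => rw [← Nat.mod_add_div n d, add_nsmul, mul_nsmul, hdP, nsmul_zero, add_zero]
    have R := range_main hPdef (d - 1) (fun k hk hk' => hmin k hk (by omega))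
    rw [hiff, Int.natCast_dvd_natCast]
    refine ⟨⟨fun e => ?_, fun hdvd => ?_⟩, fun hne => ?_⟩
    · by_contra hnd
      have hr : n % d ≠ 0 := fun e' => hnd (Nat.dvd_of_mod_eq_zero e')
      have hlt := Nat.mod_lt n (show d > 0 by omega)
      exact (R (n % d) (by omega) (by omega)).1 (hmod ▸ e)
    · rw [hmod, Nat.mod_eq_zero_of_dvd hdvd, zero_nsmul]
    · have hndvd : ¬ (d : ℤ) ∣ n := fun e => hne ((hiff _).mpr e)
      have hr : n % d ≠ 0 :=
        fun e' => hndvd (Int.natCast_dvd_natCast.mpr (Nat.dvd_of_mod_eq_zero e'))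
      have hlt := Nat.mod_lt n (show d > 0 by omega)
      -- periodicity of the ratio
      have per : ∀ m : ℤ, psiV W x y (m + d + 1) * psiV W x y (m + d - 1) * psiV W x y m ^ 2
          = psiV W x y (m + 1) * psiV W x y (m - 1) * psiV W x y (m + d) ^ 2 := fun m => by
        have r := psiV_rel h.1 (m + d) m
        rw [show m + (d : ℤ) - m = d by ring, hzero, mul_zero] at r
        linear_combination -r
      have claim : ∀ q : ℕ, ∀ r : ℕ, 1 ≤ r → r < d →
          (x - xk P r) * psiV W x y ((r : ℤ) + d * q) ^ 2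
            = psiV W x y ((r : ℤ) + d * q + 1) * psiV W x y ((r : ℤ) + d * q - 1) := by
        intro q
        induction q with
        | zero => intro r h1 h2; simpa using (R r h1 (by omega)).2.symm
        | succ q IH =>
          intro r h1 h2
          have := IH r h1 h2
          have hne' : psiV W x y ((r : ℤ) + d * q) ≠ 0 := fun e => by
            have := (hiff _).mp e
            rw [dvd_add_left (dvd_mul_right _ _), Int.natCast_dvd_natCast] at this
            have := Nat.le_of_dvd (by omega) this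
            omega
          have p := per ((r : ℤ) + d * q)
          push_cast
          rw [show (r : ℤ) + d * ((q : ℤ) + 1) = r + d * q + d by ring]
          apply mul_right_cancel₀ (pow_ne_zero 2 hne')
          linear_combination -p + psiV W x y ((r : ℤ) + d * q + d) ^ 2 * this
      have c := claim (n / d) (n % d) (by omega) hlt
      have e : ((n % d : ℕ) : ℤ) + (d : ℤ) * ((n / d : ℕ) : ℤ) = (n : ℤ) := by
        exact_mod_cast Nat.mod_add_div n d
      rw [e] at c
      have hx : xk P n = xk P (n % d) := by simp only [xk, hmod]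
      rw [hx]
      linear_combination -c
  · push Not at hz
    obtain ⟨h1, h2⟩ := range_main hPdef n (fun k hk _ => hz k hk) n (by omega) le_rfl
    refine ⟨iff_of_false h1 (hz n (by omega)), fun _ => ?_⟩
    rw [h2]; ring

end

lemma psiV_sq {x y : F} (hE : W.toAffine.Equation x y) (n : ℤ) :
    psiV W x y n ^ 2 = (W.ΨSq n).eval x := by
  have hb : pY W x y ^ 4 = W.Ψ₂Sq.eval x ^ 2 := by rw [← pY_sq hE]; ring
  have hpre : (W.preΨ n).eval x = preNormEDS (pY W x y ^ 4) (W.Ψ₃.eval x) (W.preΨ₄.eval x) n := by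
    rw [hb]
    have := map_preNormEDS (b := W.Ψ₂Sq ^ 2) (c := W.Ψ₃) (d := W.preΨ₄) (Polynomial.evalRingHom x) n
    simpa only [WeierstrassCurve.preΨ, Polynomial.coe_evalRingHom, Polynomial.eval_pow] using this
  simp only [psiV, normEDS, WeierstrassCurve.ΨSq, Polynomial.eval_mul, Polynomial.eval_pow, hpre]
  split_ifs with he
  · rw [← pY_sq hE]; ring
  · simp

lemma psiV_mul_shift {x y : F} (hE : W.toAffine.Equation x y) (n : ℤ) :
    x * psiV W x y n ^ 2 - psiV W x y (n + 1) * psiV W x y (n - 1) = (W.Φ n).eval x := by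
  have hb : pY W x y ^ 4 = W.Ψ₂Sq.eval x ^ 2 := by rw [← pY_sq hE]; ring
  have hpre : ∀ m, (W.preΨ m).eval x
      = preNormEDS (pY W x y ^ 4) (W.Ψ₃.eval x) (W.preΨ₄.eval x) m := fun m => by
    rw [hb]
    have := map_preNormEDS (b := W.Ψ₂Sq ^ 2) (c := W.Ψ₃) (d := W.preΨ₄) (Polynomial.evalRingHom x) m
    simpa only [WeierstrassCurve.preΨ, Polynomial.coe_evalRingHom, Polynomial.eval_pow] using this
  rw [psiV_sq hE]
  simp only [psiV, normEDS, WeierstrassCurve.Φ, Polynomial.eval_mul, Polynomial.eval_sub,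
    Polynomial.eval_X, ← hpre, Int.even_add_one, Int.even_sub_one]
  by_cases he : Even n
  · simp [he]
  · simp [he, ← pY_sq hE]; ring

theorem nsmul_eq_zero_iff {x y : F} (h : W.toAffine.Nonsingular x y) (n : ℕ) :
    n • (Point.some x y h : W.toAffine.Point) = 0 ↔ (W.ΨSq n).eval x = 0 := by
  rw [(nsmul_formula rfl n).1, ← psiV_sq h.1, sq_eq_zero_iff]

theorem xc_nsmul {x y : F} (h : W.toAffine.Nonsingular x y) (n : ℕ)
    (hn : (W.ΨSq n).eval x ≠ 0) :
    xc (n • (Point.some x y h : W.toAffine.Point)) * (W.ΨSq n).eval x = (W.Φ n).eval x := by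
  rw [← psiV_sq h.1] at hn ⊢
  rw [← psiV_mul_shift h.1]
  exact (nsmul_formula rfl n).2 (by simpa using hn)

theorem Φ_ne_zero_of_ΨSq_eq_zero {x y : F} (h : W.toAffine.Nonsingular x y) {n : ℕ} (hn : n ≠ 0)
    (h0 : (W.ΨSq n).eval x = 0) : (W.Φ n).eval x ≠ 0 := by
  classical
  have hz : psiV W x y n = 0 := by rwa [← psiV_sq h.1, sq_eq_zero_iff] at h0
  have hex : ∃ d : ℕ, 1 ≤ d ∧ psiV W x y d = 0 := ⟨n, by omega, hz⟩
  have hd := (Nat.find_spec hex).1
  have hzero := (Nat.find_spec hex).2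
  have hmin : ∀ k : ℕ, 1 ≤ k → k < Nat.find hex → psiV W x y k ≠ 0 :=
    fun k hk hk' e => Nat.find_min hex hk' ⟨hk, e⟩
  generalize Nat.find hex = d at hd hzero hmin
  obtain ⟨hd2, -, -⟩ := first_zero (h := h) rfl hd hzero hmin
  have hiff := zero_iff_dvd (h := h) rfl hd hzero hmin
  have hdn := (hiff n).mp hz
  have h1 : ¬ (d : ℤ) ∣ 1 := fun e => by have := Int.le_of_dvd one_pos e; omega
  have n1 : psiV W x y ((n : ℤ) + 1) ≠ 0 := fun e => h1 ((dvd_add_right hdn).mp ((hiff _).mp e))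
  have n2 : psiV W x y ((n : ℤ) - 1) ≠ 0 := fun e => h1 ((dvd_sub_right hdn).mp ((hiff _).mp e))
  rw [← psiV_mul_shift h.1, hz]
  simp [n1, n2]

end FLTAgent.Torsion
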