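import Fermat.Agent.Torsion.AddSub

set_option autoImplicit false
set_option linter.unusedSectionVars false

/-!
The multiples `k • P` of a point for `k` below the first zero of the division polynomials.
-/

namespace FLTAgent.Torsion

open WeierstrassCurve WeierstrassCurve.Affine

variable {F : Type*} [Field F] {W : WeierstrassCurve F}

/-- values of the division polynomials `ψₙ` at `(x, y)` -/
noncomputable def psiV (W : WeierstrassCurve F) (x y : F) (n : ℤ) : F :=
  normEDS (pY W x y) (W.Ψ₃.eval x) (W.preΨ₄.eval x) n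

lemma psiV_zero (x y : F) : psiV W x y 0 = 0 := normEDS_zero ..
lemma psiV_one (x y : F) : psiV W x y 1 = 1 := normEDS_one ..
lemma psiV_two (x y : F) : psiV W x y 2 = pY W x y := normEDS_two ..
lemma psiV_three (x y : F) : psiV W x y 3 = W.Ψ₃.eval x := normEDS_three ..
lemma psiV_four (x y : F) : psiV W x y 4 = W.preΨ₄.eval x * pY W x y := normEDS_four ..
lemma psiV_neg (x y : F) (n : ℤ) : psiV W x y (-n) = - psiV W x y n := normEDS_neg ..

lemma eval_Ψ₃_eq (x : F) : W.Ψ₃.eval x = x * W.Ψ₂Sq.eval x - (W.Φ 2).eval x := by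
  simp [WeierstrassCurve.Ψ₃, WeierstrassCurve.Ψ₂Sq]; ring

lemma eval_preΨ₄_eq (x : F) :
    W.preΨ₄.eval x * W.Ψ₂Sq.eval x = 2 * x * W.Ψ₃.eval x ^ 2 -
      (2 * x * (W.Φ 2).eval x * ((W.Φ 2).eval x + x * W.Ψ₂Sq.eval x)
        + W.b₂ * x * (W.Φ 2).eval x * W.Ψ₂Sq.eval x
        + W.b₄ * ((W.Φ 2).eval x + x * W.Ψ₂Sq.eval x) * W.Ψ₂Sq.eval x
        + W.b₆ * W.Ψ₂Sq.eval x ^ 2) := by
  simp [WeierstrassCurve.preΨ₄, WeierstrassCurve.Ψ₃, WeierstrassCurve.Ψ₂Sq,
    WeierstrassCurve.b₂, WeierstrassCurve.b₄, WeierstrassCurve.b₆, WeierstrassCurve.b₈]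
  ring

variable [DecidableEq F]

/-- x-coordinate of `k • P` -/
def xk (P : W.toAffine.Point) (k : ℕ) : F := xc (k • P)

lemma sub_sub_mul {Q P : W.toAffine.Point} (hQ : Q ≠ 0) (hP : P ≠ 0) (hne : xc Q ≠ xc P) (r : F) :
    (r - xc (Q + P)) * (r - xc (Q - P)) * (xc Q - xc P) ^ 2 = triForm W r (xc Q) (xc P) := by
  obtain ⟨-, -, h1, h2⟩ := xc_add_sub hQ hP hne
  simp only [triForm]
  linear_combination (-r) * h1 + h2

theorem dFormula {x y : F} {h : W.toAffine.Nonsingular x y} {P : W.toAffine.Point}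
    (hPdef : P = Point.some x y h) (L : ℕ) (g : ℕ → F)
    (hP : ∀ k, 1 ≤ k → k < L → k • P ≠ 0)
    (g0 : g 0 = 0) (g1 : g 1 = 1) (g2 : g 2 = pY W x y)
    (hg : ∀ k, 1 ≤ k → k < L → g (k + 1) * g (k - 1) = (x - xk P k) * g k ^ 2)
    (hgne : ∀ k, 1 ≤ k → k < L → g k ≠ 0) :
    ∀ b a, 1 ≤ b → b < a → a + b ≤ L →
      g (a + b) * g (a - b) = (xk P b - xk P a) * g a ^ 2 * g b ^ 2 := by
  intro b
  induction b using Nat.strong_induction_on with
  | _ b IH =>
  intro a hb hba hab
  have hx1 : xk P 1 = x := by simp [xk, hPdef]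
  have hP0 : P ≠ 0 := by rw [hPdef]; exact Point.some_ne_zero _
  have hxcP : xc P = x := by simp [hPdef]
  rcases Nat.lt_or_ge b 2 with hb2 | hb2
  · obtain rfl : b = 1 := by omega
    rw [hx1, hg a (by omega) (by omega), g1]; ring
  have hadd : ∀ k, 1 ≤ k → k + 1 < L → xk P k ≠ x ∨ k = 1 := by
    intro k hk hkL
    rcases eq_or_ne k 1 with h1 | h1
    · exact Or.inr h1
    · left; intro e
      have := hg k hk (by omega)
      rw [e, sub_self, zero_mul] at this
      exact mul_ne_zero (hgne (k + 1) (by omega) hkL) (hgne (k - 1) (by omega) (by omega)) this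
  have haP : a • P ≠ 0 := hP a (by omega) (by omega)
  have hax : xk P a ≠ x := (hadd a (by omega) (by omega)).resolve_right (by omega)
  have haP' : a • P + P = (a + 1) • P := (succ_nsmul P a).symm
  have hsubP : a • P - P = (a - 1) • P := by
    rw [sub_eq_iff_eq_add, ← succ_nsmul]; congr 1; omega
  have key1 := sub_sub_mul haP hP0 (by rw [hxcP]; exact hax)
  rw [haP', hsubP, hxcP] at key1
  rcases eq_or_ne b 2 with rfl | hbne
  · -- b = 2
    have hne2 : pY W x y ≠ 0 := g2 ▸ hgne 2 (by omega) (by omega)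
    obtain ⟨-, h2⟩ := xc_two (h := h) hne2
    have h2' : xk P 2 * pY W x y ^ 2 = (W.Φ 2).eval x := by
      rw [xk, two_nsmul, hPdef]; exact h2
    have k1 := key1 x
    rw [triForm_swap] at k1
    change (x - xk P (a + 1)) * (x - xk P (a - 1)) * (xk P a - x) ^ 2
      = triForm W (xk P a) x x at k1
    have hF : triForm W (xk P a) x x = - pY W x y ^ 2 * (xk P a - xk P 2) := by
      have hprod : prodNum W x x = (W.Φ 2).eval x := by simp [prodNum]; ring
      rw [triForm, sumNum_self, ← pY_sq h.1, hprod, ← h2']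
      ring
    rw [hF] at k1
    have e1 := hg (a + 1) (by omega) (by omega)
    have e2 := hg (a - 1) (by omega) (by omega)
    have e0 := hg a (by omega) (by omega)
    rw [show a + 1 + 1 = a + 2 by omega, show a + 1 - 1 = a by omega] at e1
    rw [show a - 1 + 1 = a by omega, show a - 1 - 1 = a - 2 by omega] at e2
    rw [g2]
    have n1 : g (a + 1) ≠ 0 := hgne _ (by omega) (by omega)
    have n2 : g (a - 1) ≠ 0 := hgne _ (by omega) (by omega)
    have n3 : g a ≠ 0 := hgne _ (by omega) (by omega)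
    have n4 : g (a + 1) ^ 2 * g (a - 1) ^ 2 * g a ^ 2 ≠ 0 := by simp [n1, n2, n3]
    apply mul_left_cancel₀ n4
    have e0' : (g (a + 1) * g (a - 1)) ^ 2 = ((x - xk P a) * g a ^ 2) ^ 2 := by rw [e0]
    have e12 : (g (a + 2) * g a) * (g a * g (a - 2)) = ((x - xk P (a + 1)) * g (a + 1) ^ 2) *
        ((x - xk P (a - 1)) * g (a - 1) ^ 2) := by rw [e1, e2]
    linear_combination (g (a + 1) ^ 2 * g (a - 1) ^ 2) * e12
      + (g (a + 1) ^ 2 * g (a - 1) ^ 2 * (x - xk P (a + 1)) * (x - xk P (a - 1))) * e0'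
      + (g (a + 1) ^ 2 * g (a - 1) ^ 2 * g a ^ 4) * k1
  · -- b ≥ 3
    obtain ⟨n, rfl⟩ : ∃ n, b = n + 1 := ⟨b - 1, by omega⟩
    have hn : 2 ≤ n := by omega
    have hnP : n • P ≠ 0 := hP n (by omega) (by omega)
    have hnx : xk P n ≠ x := (hadd n (by omega) (by omega)).resolve_right (by omega)
    have key2 := sub_sub_mul hnP hP0 (by rw [hxcP]; exact hnx)
    have hnP' : n • P + P = (n + 1) • P := (succ_nsmul P n).symm
    have hnsub : n • P - P = (n - 1) • P := by
      rw [sub_eq_iff_eq_add, ← succ_nsmul]; congr 1; omega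
    rw [hnP', hnsub, hxcP] at key2
    have A := key2 (xk P a)
    have B := key1 (xk P n)
    change (xk P a - xk P (n + 1)) * (xk P a - xk P (n - 1)) * (xk P n - x) ^ 2
      = triForm W (xk P a) (xk P n) x at A
    change (xk P n - xk P (a + 1)) * (xk P n - xk P (a - 1)) * (xk P a - x) ^ 2
      = triForm W (xk P n) (xk P a) x at B
    rw [triForm_swap W (xk P n), ← A] at B
    have D1 := IH n (by omega) (a + 1) (by omega) (by omega) (by omega)
    have D2 := IH n (by omega) (a - 1) (by omega) (by omega) (by omega)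
    have D3 := IH (n - 1) (by omega) a (by omega) (by omega) (by omega)
    have ea := hg a (by omega) (by omega)
    have en := hg n (by omega) (by omega)
    rw [show a + 1 + n = a + (n + 1) by omega, show a + 1 - n = a - (n - 1) by omega] at D1
    rw [show a - 1 + n = a + (n - 1) by omega, show a - 1 - n = a - (n + 1) by omega] at D2
    have n3 : g a ≠ 0 := hgne _ (by omega) (by omega)
    have n4 : g n ≠ 0 := hgne _ (by omega) (by omega)
    have n5 : g (a + (n - 1)) * g (a - (n - 1)) ≠ 0 :=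
      mul_ne_zero (hgne _ (by omega) (by omega)) (hgne _ (by omega) (by omega))
    have n6 : xk P n - x ≠ 0 := sub_ne_zero.mpr hnx
    have n7 : g (n - 1) ≠ 0 := hgne _ (by omega) (by omega)
    have h12 : (g (a + (n + 1)) * g (a - (n - 1))) * (g (a + (n - 1)) * g (a - (n + 1)))
        = ((xk P n - xk P (a + 1)) * g (a + 1) ^ 2 * g n ^ 2) *
          ((xk P n - xk P (a - 1)) * g (a - 1) ^ 2 * g n ^ 2) := by rw [D1, D2]
    have ea' : (g (a + 1) * g (a - 1)) ^ 2 = ((x - xk P a) * g a ^ 2) ^ 2 := by rw [ea]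
    have en' : (g (n + 1) * g (n - 1)) ^ 2 = ((x - xk P n) * g n ^ 2) ^ 2 := by rw [en]
    apply mul_left_cancel₀ n5
    linear_combination h12
      + ((xk P n - xk P (a + 1)) * (xk P n - xk P (a - 1)) * g n ^ 4) * ea'
      + g a ^ 4 * g n ^ 4 * B
      - (xk P (n + 1) - xk P a) * g a ^ 2 * g (n + 1) ^ 2 * D3
      - (xk P (n + 1) - xk P a) * (xk P (n - 1) - xk P a) * g a ^ 4 * en'

theorem range_main {x y : F} {h : W.toAffine.Nonsingular x y} {P : W.toAffine.Point}
    (hPdef : P = Point.some x y h) :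
    ∀ M : ℕ, (∀ k : ℕ, 1 ≤ k → k ≤ M → psiV W x y k ≠ 0) →
      ∀ k : ℕ, 1 ≤ k → k ≤ M → k • P ≠ 0 ∧
        psiV W x y ((k : ℤ) + 1) * psiV W x y ((k : ℤ) - 1)
          = (x - xk P k) * psiV W x y k ^ 2 := by
  intro M
  induction M with
  | zero => intro _ k hk hk'; omega
  | succ M IH =>
  intro hne k hk hk'
  have IH' := IH (fun j hj hj' => hne j hj (by omega))
  rcases Nat.lt_or_ge k (M + 1) with hlt | hge
  · exact IH' k hk (by omega)
  obtain rfl : k = M + 1 := by omega
  have hP0 : P ≠ 0 := by rw [hPdef]; exact Point.some_ne_zero _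
  have hxcP : xc P = x := by simp [hPdef]
  have hx1 : xk P 1 = x := by simp [xk, hPdef]
  rcases Nat.lt_or_ge M 1 with hM0 | hM1
  · obtain rfl : M = 0 := by omega
    refine ⟨by simpa using hP0, ?_⟩
    simp [hx1, psiV_zero]
  have hb : pY W x y ≠ 0 := by
    have := hne 2 (by omega) (by omega)
    simpa [psiV_two] using this
  obtain ⟨h2ne, h2val⟩ := xc_two (h := h) hb
  have h2' : xk P 2 * pY W x y ^ 2 = (W.Φ 2).eval x := by
    rw [xk, two_nsmul, hPdef]; exact h2val
  have hsq := pY_sq h.1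
  rcases eq_or_ne M 1 with rfl | hMne1
  · refine ⟨by rw [show (1 + 1 : ℕ) • P = P + P from two_nsmul P, hPdef]; exact h2ne, ?_⟩
    norm_num [psiV_one, psiV_two, psiV_three]
    rw [eval_Ψ₃_eq, ← hsq, ← h2']
    ring
  have hM2 : 2 ≤ M := by omega
  obtain ⟨hMP, hMf⟩ := IH' M (by omega) le_rfl
  have hN : psiV W x y ((M : ℤ) + 1) ≠ 0 := by
    have := hne (M + 1) (by omega) le_rfl
    simpa using this
  have hM1' : psiV W x y ((M : ℤ) - 1) ≠ 0 := by
    have := hne (M - 1) (by omega) (by omega)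
    rwa [Nat.cast_sub (by omega), Nat.cast_one] at this
  have hMx : xk P M ≠ x := by
    intro e
    rw [e, sub_self, zero_mul] at hMf
    exact mul_ne_zero hN hM1' hMf
  obtain ⟨hNP, -, hsum, -⟩ := xc_add_sub hMP hP0 (by rw [hxcP]; exact hMx)
  rw [← succ_nsmul] at hNP
  refine ⟨hNP, ?_⟩
  rcases eq_or_ne M 2 with rfl | hMne2
  · -- k = 3
    have hsub : (2 : ℕ) • P - P = P := by rw [two_nsmul]; simp
    rw [← succ_nsmul, hsub, hxcP] at hsum
    change (xk P 3 + x) * (xk P 2 - x) ^ 2 = sumNum W (xk P 2) x at hsum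
    have e4 := eval_preΨ₄_eq (W := W) x
    have e3 := eval_Ψ₃_eq (W := W) x
    norm_num [psiV_two, psiV_three, psiV_four]
    rw [← hsq, ← h2'] at e4 e3
    rw [sumNum] at hsum
    linear_combination e4 + pY W x y ^ 4 * hsum
      + (x + xk P 3) *
        (W.Ψ₃.eval x + pY W x y ^ 2 * x - xk P 2 * pY W x y ^ 2) * e3
  -- k ≥ 4
  have hM3 : 3 ≤ M := by omega
  set g : ℕ → F := fun j => if j ≤ M + 1 then psiV W x y j
    else (x - xk P (M + 1)) * psiV W x y ((M : ℤ) + 1) ^ 2 / psiV W x y M with hgdef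
  have hgle : ∀ j : ℕ, j ≤ M + 1 → g j = psiV W x y j := fun j hj => by simp [hgdef, hj]
  have hgtop : g (M + 2) = (x - xk P (M + 1)) * psiV W x y ((M : ℤ) + 1) ^ 2 / psiV W x y M := by
    simp [hgdef]
  have hMne : psiV W x y M ≠ 0 := hne M (by omega) (by omega)
  have hPk : ∀ j, 1 ≤ j → j < M + 2 → j • P ≠ 0 := fun j hj hj' => by
    rcases Nat.lt_or_ge j (M + 1) with h1 | h1
    · exact (IH' j hj (by omega)).1
    · obtain rfl : j = M + 1 := by omega
      exact hNP
  have hgg : ∀ j, 1 ≤ j → j < M + 2 → g (j + 1) * g (j - 1) = (x - xk P j) * g j ^ 2 := by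
    intro j hj hj'
    rw [hgle j (by omega), hgle (j - 1) (by omega), Nat.cast_sub hj, Nat.cast_one]
    rcases Nat.lt_or_ge j (M + 1) with h1 | h1
    · rw [hgle (j + 1) (by omega)]
      simpa using (IH' j hj (by omega)).2
    · obtain rfl : j = M + 1 := by omega
      rw [hgtop]
      push_cast
      rw [add_sub_cancel_right, div_mul_cancel₀ _ hMne]
  have hgn : ∀ j, 1 ≤ j → j < M + 2 → g j ≠ 0 := fun j hj hj' => by
    rw [hgle j (by omega)]; exact hne j hj (by omega)
  have hg1 : g 1 = 1 := by rw [hgle 1 (by omega)]; exact psiV_one x y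
  have D := dFormula hPdef (M + 2) g hPk (by rw [hgle 0 (by omega)]; exact psiV_zero x y) hg1
    (by rw [hgle 2 (by omega)]; exact psiV_two x y) hgg hgn
  have hgtop' : g (M + 2) = psiV W x y ((M : ℤ) + 2) := by
    rcases Nat.even_or_odd (M + 2) with ⟨m, hm⟩ | ⟨m, hm⟩
    · have hm' : M + 2 = 2 * m := by omega
      have R := D (m - 1) (m + 1) (by omega) (by omega) (by omega)
      rw [show m + 1 + (m - 1) = M + 2 by omega, show m + 1 - (m - 1) = 2 by omega] at R
      have a1 := hgg (m + 1) (by omega) (by omega)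
      have a2 := hgg (m - 1) (by omega) (by omega)
      rw [show m + 1 + 1 = m + 2 by omega, show m + 1 - 1 = m by omega] at a1
      rw [show m - 1 + 1 = m by omega, show m - 1 - 1 = m - 2 by omega] at a2
      have hev := normEDS_even (pY W x y) (W.Ψ₃.eval x) (W.preΨ₄.eval x) (m : ℤ)
      rw [← psiV_two (W := W) x y] at hev
      have c1 : psiV W x y ((m : ℤ) - 1) = g (m - 1) := by
        rw [hgle _ (by omega), Nat.cast_sub (by omega), Nat.cast_one]
      have c2 : psiV W x y ((m : ℤ) - 2) = g (m - 2) := by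
        rw [hgle _ (by omega), Nat.cast_sub (by omega), Nat.cast_ofNat]
      have c3 : psiV W x y ((m : ℤ) + 1) = g (m + 1) := by rw [hgle _ (by omega)]; simp
      have c4 : psiV W x y ((m : ℤ) + 2) = g (m + 2) := by rw [hgle _ (by omega)]; simp
      have c5 : psiV W x y (m : ℤ) = g m := (hgle m (by omega)).symm
      have c6 : psiV W x y 2 = g 2 := (hgle 2 (by omega)).symm
      have hev' : psiV W x y ((M : ℤ) + 2) * g 2 =
          g (m - 1) ^ 2 * g m * g (m + 2) - g (m - 2) * g m * g (m + 1) ^ 2 := by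
        rw [← c1, ← c2, ← c3, ← c4, ← c5, ← c6, show (M : ℤ) + 2 = 2 * (m : ℤ) by omega]
        rw [psiV_two]
        simpa [psiV] using hev
      have h2ne' : g 2 ≠ 0 := hgn 2 (by omega) (by omega)
      apply mul_right_cancel₀ h2ne'
      rw [hev', R]
      linear_combination g (m + 1) ^ 2 * a2 - g (m - 1) ^ 2 * a1
    · have R := D m (m + 1) (by omega) (by omega) (by omega)
      rw [show m + 1 + m = M + 2 by omega, show m + 1 - m = 1 by omega, hg1, mul_one] at R
      have a1 := hgg (m + 1) (by omega) (by omega)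
      have a2 := hgg m (by omega) (by omega)
      rw [show m + 1 + 1 = m + 2 by omega, show m + 1 - 1 = m by omega] at a1
      have hev := normEDS_odd (pY W x y) (W.Ψ₃.eval x) (W.preΨ₄.eval x) (m : ℤ)
      have c1 : psiV W x y ((m : ℤ) - 1) = g (m - 1) := by
        rw [hgle _ (by omega), Nat.cast_sub (by omega), Nat.cast_one]
      have c3 : psiV W x y ((m : ℤ) + 1) = g (m + 1) := by rw [hgle _ (by omega)]; simp
      have c4 : psiV W x y ((m : ℤ) + 2) = g (m + 2) := by rw [hgle _ (by omega)]; simp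
      have c5 : psiV W x y (m : ℤ) = g m := (hgle m (by omega)).symm
      have hev' : psiV W x y ((M : ℤ) + 2) =
          g (m + 2) * g m ^ 3 - g (m - 1) * g (m + 1) ^ 3 := by
        rw [← c1, ← c3, ← c4, ← c5, show (M : ℤ) + 2 = 2 * (m : ℤ) + 1 by omega]
        exact hev
      rw [R, hev']
      linear_combination g (m + 1) ^ 2 * a2 - g m ^ 2 * a1
  have := hgg (M + 1) (by omega) (by omega)
  rw [show M + 1 + 1 = M + 2 by omega, show M + 1 - 1 = M by omega, hgtop',
    hgle M (by omega), hgle (M + 1) (by omega)] at this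
  push_cast at this ⊢
  rw [add_sub_cancel_right, show (M : ℤ) + 1 + 1 = M + 2 by ring]
  exact this

end FLTAgent.Torsion
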