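import Fermat.Agent.Torsion.Range
import Mathlib.RingTheory.Localization.FractionRing
import Mathlib.Algebra.MvPolynomial.CommRing
import Mathlib.RingTheory.MvPolynomial.Basic

set_option autoImplicit false
set_option linter.unusedSectionVars false

/-!
The elliptic relation for the values of division polynomials, through the generic point.
-/

namespace FLTAgent.Torsion

open WeierstrassCurve WeierstrassCurve.Affine

/-- values of the division polynomials over a ring -/
noncomputable def psiR {R : Type*} [CommRing R] (W : WeierstrassCurve R) (x y : R) (n : ℤ) : R :=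
  normEDS (2 * y + W.a₁ * x + W.a₃) (W.Ψ₃.eval x) (W.preΨ₄.eval x) n

lemma psiR_eq_psiV {F : Type*} [Field F] (W : WeierstrassCurve F) (x y : F) :
    psiR W x y = psiV W x y := rfl

lemma psiR_map {R S : Type*} [CommRing R] [CommRing S] (W : WeierstrassCurve R) (f : R →+* S)
    (x y : R) (n : ℤ) : f (psiR W x y n) = psiR (W.map f) (f x) (f y) n := by
  simp only [psiR, map_normEDS, map_Ψ₃, map_preΨ₄, Polynomial.eval_map_apply, map_add, map_mul,
    map_ofNat, map_a₁, map_a₃]

lemma normEDS_two_three_two (n : ℕ) : normEDS (2 : ℤ) 3 2 (n : ℤ) = n := by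
  induction n using normEDSRec' with
  | zero => simp
  | one => simp
  | two => exact normEDS_two ..
  | three => exact normEDS_three ..
  | four => exact (normEDS_four ..).trans (by norm_num)
  | even m IH =>
    have h := normEDS_even (2 : ℤ) 3 2 ((m + 3 : ℕ) : ℤ)
    have e : ∀ j : ℕ, j < 2 * (m + 3) → normEDS (2 : ℤ) 3 2 (j : ℤ) = j := IH
    rw [show ((m + 3 : ℕ) : ℤ) - 1 = ((m + 2 : ℕ) : ℤ) by push_cast; ring,
      show ((m + 3 : ℕ) : ℤ) - 2 = ((m + 1 : ℕ) : ℤ) by push_cast; ring,
      show ((m + 3 : ℕ) : ℤ) + 1 = ((m + 4 : ℕ) : ℤ) by push_cast; ring,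
      show ((m + 3 : ℕ) : ℤ) + 2 = ((m + 5 : ℕ) : ℤ) by push_cast; ring,
      e _ (by omega), e _ (by omega), e _ (by omega), e _ (by omega), e _ (by omega)] at h
    apply mul_right_cancel₀ (two_ne_zero (α := ℤ))
    push_cast at h ⊢
    rw [h]
    ring
  | odd m IH =>
    have h := normEDS_odd (2 : ℤ) 3 2 ((m + 2 : ℕ) : ℤ)
    have e : ∀ j : ℕ, j < 2 * (m + 2) + 1 → normEDS (2 : ℤ) 3 2 (j : ℤ) = j := IH
    rw [show ((m + 2 : ℕ) : ℤ) - 1 = ((m + 1 : ℕ) : ℤ) by push_cast; ring,
      show ((m + 2 : ℕ) : ℤ) + 1 = ((m + 3 : ℕ) : ℤ) by push_cast; ring,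
      show ((m + 2 : ℕ) : ℤ) + 2 = ((m + 4 : ℕ) : ℤ) by push_cast; ring,
      e _ (by omega), e _ (by omega), e _ (by omega), e _ (by omega)] at h
    push_cast at h ⊢
    rw [h]
    ring

abbrev UnivRing : Type := MvPolynomial (Fin 6) ℤ

/-- the universal curve with a marked point -/
noncomputable def univCurve : WeierstrassCurve UnivRing where
  a₁ := MvPolynomial.X 0
  a₂ := MvPolynomial.X 1
  a₃ := MvPolynomial.X 2
  a₄ := MvPolynomial.X 3
  a₆ := MvPolynomial.X 5 ^ 2 + MvPolynomial.X 0 * MvPolynomial.X 4 * MvPolynomial.X 5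
    + MvPolynomial.X 2 * MvPolynomial.X 5
    - (MvPolynomial.X 4 ^ 3 + MvPolynomial.X 1 * MvPolynomial.X 4 ^ 2
      + MvPolynomial.X 3 * MvPolynomial.X 4)

lemma univ_ne_zero {n : ℕ} (hn : n ≠ 0) :
    psiR univCurve (MvPolynomial.X 4) (MvPolynomial.X 5) n ≠ 0 := by
  intro h
  have := congrArg (MvPolynomial.eval (![0, 0, 0, 0, 1, 1] : Fin 6 → ℤ)) h
  rw [map_zero, psiR_map] at this
  have e : psiR (univCurve.map (MvPolynomial.eval (![0, 0, 0, 0, 1, 1] : Fin 6 → ℤ)))
      (MvPolynomial.eval (![0, 0, 0, 0, 1, 1] : Fin 6 → ℤ) (MvPolynomial.X 4))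
      (MvPolynomial.eval (![0, 0, 0, 0, 1, 1] : Fin 6 → ℤ) (MvPolynomial.X 5)) n
      = normEDS (2 : ℤ) 3 2 n := by
    simp [psiR, univCurve, WeierstrassCurve.Ψ₃, WeierstrassCurve.preΨ₄, WeierstrassCurve.b₂,
      WeierstrassCurve.b₄, WeierstrassCurve.b₆, WeierstrassCurve.b₈]
  rw [e, normEDS_two_three_two] at this
  omega

lemma univ_relation_nat {a b : ℕ} (hb : 1 ≤ b) (hba : b < a) :
    let ψ := psiR univCurve (MvPolynomial.X 4) (MvPolynomial.X 5)
    ψ ((a : ℤ) + b) * ψ ((a : ℤ) - b) = ψ ((a : ℤ) + 1) * ψ ((a : ℤ) - 1) * ψ b ^ 2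
      - ψ ((b : ℤ) + 1) * ψ ((b : ℤ) - 1) * ψ a ^ 2 := by
  intro ψ
  classical
  let f : UnivRing →+* FractionRing UnivRing := algebraMap _ _
  have hf : Function.Injective f := IsFractionRing.injective UnivRing (FractionRing UnivRing)
  set E := univCurve.map f with hE
  set x := f (MvPolynomial.X 4) with hx
  set y := f (MvPolynomial.X 5) with hy
  have hψ : ∀ n, f (ψ n) = psiV E x y n := fun n => by
    simp only [ψ, hE, hx, hy, ← psiR_eq_psiV]; exact psiR_map univCurve f _ _ n
  have hne : ∀ k : ℕ, 1 ≤ k → psiV E x y k ≠ 0 := fun k hk => by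
    rw [← hψ]
    exact fun h => univ_ne_zero (Nat.one_le_iff_ne_zero.mp hk)
      (hf (by rw [h, map_zero]))
  have heq : E.toAffine.Equation x y := by
    rw [equation_iff]
    simp [hE, hx, hy, univCurve]
  have hns : E.toAffine.Nonsingular x y := by
    refine ⟨heq, Or.inr ?_⟩
    rw [evalEval_polynomialY]
    have := hne 2 (by omega)
    simpa [psiV_two, pY] using this
  set P : E.toAffine.Point := Point.some x y hns with hP
  have hrange : ∀ k : ℕ, 1 ≤ k → k • P ≠ 0 ∧ psiV E x y ((k : ℤ) + 1) * psiV E x y ((k : ℤ) - 1)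
      = (x - xk P k) * psiV E x y k ^ 2 := fun k hk =>
    range_main hP k (fun j hj _ => hne j hj) k hk le_rfl
  set g : ℕ → FractionRing UnivRing := fun k => psiV E x y k with hg
  have D := dFormula hP (a + b) g (fun k hk _ => (hrange k hk).1) (psiV_zero x y) (psiV_one x y)
    (psiV_two x y)
    (fun k hk _ => by
      have := (hrange k hk).2
      simp only [hg, Nat.cast_sub hk, Nat.cast_one, Nat.cast_add]
      exact this)
    (fun k hk _ => hne k hk) b a hb hba le_rfl
  apply hf
  simp only [map_mul, map_sub, map_pow, hψ]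
  simp only [hg, Nat.cast_add, Nat.cast_sub hba.le] at D
  rw [D, (hrange a (by omega)).2, (hrange b hb).2]
  ring

lemma psiR_neg {R : Type*} [CommRing R] (W : WeierstrassCurve R) (x y : R) (n : ℤ) :
    psiR W x y (-n) = - psiR W x y n := normEDS_neg ..

theorem univ_relation (a b : ℤ) :
    let ψ := psiR univCurve (MvPolynomial.X 4) (MvPolynomial.X 5)
    ψ (a + b) * ψ (a - b) = ψ (a + 1) * ψ (a - 1) * ψ b ^ 2
      - ψ (b + 1) * ψ (b - 1) * ψ a ^ 2 := by
  intro ψ
  have hneg : ∀ n, ψ (-n) = - ψ n := fun n => psiR_neg ..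
  let Rel : ℤ → ℤ → Prop := fun a b =>
    ψ (a + b) * ψ (a - b) = ψ (a + 1) * ψ (a - 1) * ψ b ^ 2 - ψ (b + 1) * ψ (b - 1) * ψ a ^ 2
  have hA : ∀ a b, Rel a b → Rel (-a) b := by
    intro a b h
    simp only [Rel] at h ⊢
    rw [show -a + b = -(a - b) by ring, show -a - b = -(a + b) by ring,
      show -a + 1 = -(a - 1) by ring, show -a - 1 = -(a + 1) by ring, hneg, hneg, hneg, hneg, hneg]
    linear_combination h
  have hS : ∀ a b, Rel a b → Rel b a := by
    intro a b h
    simp only [Rel] at h ⊢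
    rw [show b - a = -(a - b) by ring, hneg, add_comm b a]
    linear_combination -h
  have hN : ∀ a b : ℕ, Rel a b := by
    intro a b
    rcases lt_trichotomy b a with h | h | h
    · rcases Nat.eq_zero_or_pos b with rfl | hb
      · have h0 : ψ 0 = 0 := normEDS_zero ..
        have h1 : ψ 1 = 1 := normEDS_one ..
        simp only [Rel, Nat.cast_zero, add_zero, sub_zero, zero_add, zero_sub, hneg, h0, h1]
        ring
      · exact univ_relation_nat hb h
    · subst h
      have h0 : ψ 0 = 0 := normEDS_zero ..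
      simp only [Rel, sub_self, h0]
      ring
    · rcases Nat.eq_zero_or_pos a with rfl | ha
      · have h0 : ψ 0 = 0 := normEDS_zero ..
        have h1 : ψ 1 = 1 := normEDS_one ..
        simp only [Rel, Nat.cast_zero, add_zero, sub_zero, zero_add, zero_sub, hneg, h0, h1]
        ring
      · exact hS _ _ (univ_relation_nat ha h)
  show Rel a b
  obtain ⟨m, rfl | rfl⟩ := Int.eq_nat_or_neg a <;> obtain ⟨k, rfl | rfl⟩ := Int.eq_nat_or_neg b
  · exact hN m k
  · exact hS _ _ (hA _ _ (hS _ _ (hN m k)))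
  · exact hA _ _ (hN m k)
  · exact hA _ _ (hS _ _ (hA _ _ (hS _ _ (hN m k))))

/-- The elliptic relation at a point on a curve. -/
theorem psiR_relation {R : Type*} [CommRing R] {W : WeierstrassCurve R} {x y : R}
    (h : W.toAffine.Equation x y) (a b : ℤ) :
    psiR W x y (a + b) * psiR W x y (a - b)
      = psiR W x y (a + 1) * psiR W x y (a - 1) * psiR W x y b ^ 2
      - psiR W x y (b + 1) * psiR W x y (b - 1) * psiR W x y a ^ 2 := by
  let f : UnivRing →+* R :=
    MvPolynomial.eval₂Hom (Int.castRingHom R) ![W.a₁, W.a₂, W.a₃, W.a₄, x, y]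
  have hW : univCurve.map f = W := by
    rw [equation_iff] at h
    ext
    · simp [f, univCurve]
    · simp [f, univCurve]
    · simp [f, univCurve]
    · simp [f, univCurve]
    · simp [f, univCurve]
      linear_combination h
  have hψ : ∀ n, f (psiR univCurve (MvPolynomial.X 4) (MvPolynomial.X 5) n) = psiR W x y n :=
    fun n => by rw [psiR_map, hW]; simp [f]
  have := congrArg f (univ_relation a b)
  simpa only [map_mul, map_sub, map_pow, hψ] using this

theorem psiR_relation₃ {R : Type*} [CommRing R] {W : WeierstrassCurve R} {x y : R}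
    (h : W.toAffine.Equation x y) (a b c : ℤ) :
    psiR W x y (a + b) * psiR W x y (a - b) * psiR W x y c ^ 2
      + psiR W x y (b + c) * psiR W x y (b - c) * psiR W x y a ^ 2
      + psiR W x y (c + a) * psiR W x y (c - a) * psiR W x y b ^ 2 = 0 := by
  rw [psiR_relation h a b, psiR_relation h b c, psiR_relation h c a]
  ring

end FLTAgent.Torsion
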